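/-
S56 [P-TW] (GT1), helper52: abstract cocycle lemmas (Mathlib only).

* `coboundary_of_res_eq_zero`: a cocycle of a finite group `G` with values in a `k`-module `M`
  which vanishes on a subgroup `P` whose index is invertible in `k` is a coboundary.
* `cocycle_pow`: `c (g ^ n) = ∑ i < n, act (g ^ i) (c g)`.
-/
import Mathlib

set_option autoImplicit false

namespace Fermat.Agent.GP.TW.H1Dir

open scoped BigOperators

section abstract

variable {k : Type*} [Field k] {M : Type*} [AddCommGroup M] [Module k M]
variable {G : Type*} [Group G]

/-- The cocycle condition for a function `c : G → M` w.r.t. a linear action `act`. -/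
def IsCocycle (act : G →* Module.End k M) (c : G → M) : Prop :=
  ∀ g h : G, c (g * h) = c g + act g (c h)

theorem IsCocycle.map_one {act : G →* Module.End k M} {c : G → M} (hc : IsCocycle act c) :
    c 1 = 0 := by
  have h := hc 1 1
  rw [mul_one, act.map_one, Module.End.one_apply] at h
  exact left_eq_add.mp h

theorem IsCocycle.map_pow {act : G →* Module.End k M} {c : G → M} (hc : IsCocycle act c)
    (g : G) (n : ℕ) : c (g ^ n) = ∑ i ∈ Finset.range n, act (g ^ i) (c g) := by
  induction n with
  | zero => simp [hc.map_one]
  | succ n ih =>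
    rw [pow_succ, hc, ih, Finset.sum_range_succ]

/-- A cocycle vanishing on a subgroup of invertible index is a coboundary. -/
theorem coboundary_of_res_eq_zero [Finite G] (act : G →* Module.End k M) (c : G → M)
    (hc : IsCocycle act c) (P : Subgroup G) (hP : ∀ g ∈ P, c g = 0)
    (hidx : ((P.index : ℕ) : k) ≠ 0) :
    ∃ m : M, ∀ g : G, c g = act g m - m := by
  classical
  letI : Fintype (G ⧸ P) := Fintype.ofFinite _
  -- `c` is constant on left cosets
  have hcoset : ∀ g : G, ∀ q ∈ P, c (g * q) = c g := by
    intro g q hq
    rw [hc, hP q hq, map_zero, add_zero]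
  let f : G ⧸ P → M := Quotient.lift c (by
    intro a b hab
    have hab' : a⁻¹ * b ∈ P := QuotientGroup.leftRel_apply.mp hab
    have : b = a * (a⁻¹ * b) := by group
    rw [this, hcoset a _ hab'])
  have hf : ∀ g : G, f (QuotientGroup.mk g) = c g := fun g => rfl
  set s : M := ∑ q : G ⧸ P, f q with hs
  have hcard : Fintype.card (G ⧸ P) = P.index := by
    rw [Subgroup.index, Nat.card_eq_fintype_card]
  -- act h s = s - index • c h
  have key : ∀ h : G, act h s = s - (P.index : k) • c h := by
    intro h
    have h1 : ∀ q : G ⧸ P, act h (f q) = f (h • q) - c h := by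
      intro q
      induction q using QuotientGroup.induction_on with
      | H g =>
        rw [hf]
        have : (h • (QuotientGroup.mk g : G ⧸ P)) = QuotientGroup.mk (h * g) := rfl
        rw [this, hf, hc]
        abel
    rw [hs, map_sum]
    simp_rw [h1]
    rw [Finset.sum_sub_distrib]
    congr 1
    · exact Fintype.sum_equiv (MulAction.toPerm h) _ _ (fun q => rfl)
    · rw [Finset.sum_const, Finset.card_univ, hcard, Nat.cast_smul_eq_nsmul]
  refine ⟨-((P.index : k)⁻¹ • s), fun g => ?_⟩
  have := key g
  rw [map_neg, map_smul, this, smul_sub, smul_smul, inv_mul_cancel₀ hidx, one_smul]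
  abel

end abstract

end Fermat.Agent.GP.TW.H1Dir
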