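/-
S56 [P-TW] (GT1), helper52: the twisted adjoint action of `GL₂(k)` on 2×2 matrices, the order lemma
(`tr(g)² ≠ 4`, `det g = 1` ⟹ `p ∤ orderOf g`) and THE TRACE IDENTITY `tr(c(g)·g) = 0`.
Mathlib only.
-/
import Fermat.Agent.GP.TW.H1Dir.Basic

set_option autoImplicit false

namespace Fermat.Agent.GP.TW.H1Dir

open Matrix

variable {k : Type*} [Field k]

/-- Twisted adjoint action `m ↦ det(g) • g m g⁻¹`. -/
noncomputable def tad : GL (Fin 2) k →* Module.End k (Matrix (Fin 2) (Fin 2) k) where
  toFun g :=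
    { toFun := fun m => ((Matrix.GeneralLinearGroup.det g : kˣ) : k) • (g.1 * m * (g⁻¹).1)
      map_add' := fun m m' => by simp [mul_add, add_mul]
      map_smul' := fun a m => by
        simp only [Matrix.mul_smul, Matrix.smul_mul, RingHom.id_apply]
        rw [smul_comm] }
  map_one' := by
    ext m : 1
    simp
  map_mul' g h := by
    ext m : 1
    simp only [map_mul, Units.val_mul, _root_.mul_inv_rev, LinearMap.coe_mk, AddHom.coe_mk,
      Module.End.mul_apply, Matrix.mul_smul, Matrix.smul_mul, smul_smul]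
    congr 1
    simp only [Matrix.mul_assoc]

theorem tad_apply (g : GL (Fin 2) k) (m : Matrix (Fin 2) (Fin 2) k) :
    tad g m = ((Matrix.GeneralLinearGroup.det g : kˣ) : k) • (g.1 * m * (g⁻¹).1) := rfl

theorem trace_tad_mul_self (g : GL (Fin 2) k) (m : Matrix (Fin 2) (Fin 2) k) (i : ℕ) :
    (tad (g ^ i) m * g.1).trace
      = ((Matrix.GeneralLinearGroup.det g : kˣ) : k) ^ i * (m * g.1).trace := by
  rw [tad_apply, Matrix.smul_mul, Matrix.trace_smul, smul_eq_mul, map_pow, Units.val_pow_eq_pow_val]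
  congr 1
  have h1 : ((g ^ i)⁻¹).1 * g.1 = g.1 * ((g ^ i)⁻¹).1 := by
    have : (g ^ i)⁻¹ * g = g * (g ^ i)⁻¹ := by
      rw [← inv_pow]; exact (Commute.pow_left (Commute.inv_left (Commute.refl g)) i).eq
    have := congrArg Units.val this
    simpa using this
  rw [Matrix.mul_assoc, h1, ← Matrix.mul_assoc, Matrix.trace_mul_comm, ← Matrix.mul_assoc,
    ← Matrix.mul_assoc]
  have h2 : ((g ^ i)⁻¹).1 * (g ^ i).1 = 1 := by
    have := congrArg Units.val (inv_mul_cancel (g ^ i))
    simpa using this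
  rw [h2, Matrix.one_mul]

section order

/-- Cayley–Hamilton for 2×2 matrices. -/
theorem sq_eq_trace_smul_sub_det (G : Matrix (Fin 2) (Fin 2) k) :
    G * G = G.trace • G - G.det • (1 : Matrix (Fin 2) (Fin 2) k) := by
  ext i j
  fin_cases i <;> fin_cases j <;>
    simp [Matrix.mul_apply, Fin.sum_univ_two, Matrix.trace_fin_two, Matrix.det_fin_two] <;> ring

theorem exists_pow_eq_smul_add (G : Matrix (Fin 2) (Fin 2) k) (hdet : G.det = 1) (j : ℕ) :
    ∃ a b : k, G ^ j = a • (1 : Matrix (Fin 2) (Fin 2) k) + b • G := by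
  induction j with
  | zero => exact ⟨1, 0, by simp⟩
  | succ j ih =>
    obtain ⟨a, b, h⟩ := ih
    refine ⟨-b, a + b * G.trace, ?_⟩
    rw [pow_succ, h, add_mul, Matrix.smul_mul, Matrix.smul_mul, Matrix.one_mul,
      sq_eq_trace_smul_sub_det, hdet, smul_sub, smul_smul, add_smul, neg_smul, one_smul]
    abel

theorem trace_smul_one_add_smul (G : Matrix (Fin 2) (Fin 2) k) (a b : k) :
    (a • (1 : Matrix (Fin 2) (Fin 2) k) + b • G).trace = 2 * a + b * G.trace := by
  simp [Matrix.trace_fin_two]; ring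

theorem det_smul_one_add_smul (G : Matrix (Fin 2) (Fin 2) k) (a b : k) :
    (a • (1 : Matrix (Fin 2) (Fin 2) k) + b • G).det = a ^ 2 + a * b * G.trace + b ^ 2 * G.det := by
  simp [Matrix.det_fin_two, Matrix.trace_fin_two]; ring

/-- A nilpotent 2×2 matrix has trace zero. -/
theorem trace_eq_zero_of_pow_eq_zero {N : Matrix (Fin 2) (Fin 2) k} {n : ℕ} (hN : N ^ n = 0) :
    N.trace = 0 := by
  have hdet0 : (0 : Matrix (Fin 2) (Fin 2) k).det = 0 := Matrix.det_zero
  have hdet : N.det = 0 := by
    have := congrArg Matrix.det hN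
    rw [Matrix.det_pow, hdet0] at this
    by_cases h0 : n = 0
    · subst h0
      simp at this
    · exact (pow_eq_zero_iff h0).mp this
  have hsq : N * N = N.trace • N := by
    rw [sq_eq_trace_smul_sub_det, hdet, zero_smul, sub_zero]
  have hpow : ∀ j : ℕ, N ^ (j + 1) = N.trace ^ j • N := by
    intro j
    induction j with
    | zero => simp
    | succ j ih => rw [pow_succ, ih, Matrix.smul_mul, hsq, smul_smul, pow_succ]
  by_contra htr
  rcases Nat.eq_zero_or_pos n with h0 | hpos
  · subst h0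
    have h1 : (1 : Matrix (Fin 2) (Fin 2) k) = 0 := by simpa using hN
    exact one_ne_zero h1
  · obtain ⟨j, rfl⟩ : ∃ j, n = j + 1 := ⟨n - 1, by omega⟩
    rw [hpow] at hN
    have hN0 : N = 0 := by
      rcases smul_eq_zero.mp hN with h | h
      · exact absurd h (pow_ne_zero j htr)
      · exact h
    exact htr (by rw [hN0]; simp)

variable (p : ℕ) [Fact p.Prime] [CharP k p]

/-- `det g = 1`, `tr(g)² ≠ 4`, `g` of finite order ⟹ `p ∤ orderOf g`. -/
theorem not_dvd_orderOf_of_trace_sq_ne_four (g : GL (Fin 2) k) (hfin : IsOfFinOrder g)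
    (hdet : g.1.det = 1) (htr : g.1.trace ^ 2 ≠ 4) : ¬ p ∣ orderOf g := by
  intro hdvd
  have hp : p.Prime := Fact.out
  have hn0 : orderOf g ≠ 0 := hfin.orderOf_pos.ne'
  set w := g ^ (orderOf g / p) with hw
  have hword : orderOf w = p := orderOf_pow_orderOf_div hn0 hdvd
  have hwp : w ^ p = 1 := by rw [← hword]; exact pow_orderOf_eq_one w
  have hw1 : w ≠ 1 := by
    intro h
    rw [h, orderOf_one] at hword
    exact hp.one_lt.ne hword
  obtain ⟨a, b, hab⟩ := exists_pow_eq_smul_add g.1 hdet (orderOf g / p)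
  have hW : w.1 = a • (1 : Matrix (Fin 2) (Fin 2) k) + b • g.1 := by
    rw [hw, Units.val_pow_eq_pow_val, hab]
  -- N = W - 1 is nilpotent
  set N : Matrix (Fin 2) (Fin 2) k := w.1 - 1 with hN
  haveI : CharP (Matrix (Fin 2) (Fin 2) k) p := Matrix.charP p
  have hNp : N ^ p = 0 := by
    rw [hN, sub_pow_char_of_commute p (Commute.one_right _), one_pow, ← Units.val_pow_eq_pow_val,
      hwp, Units.val_one, sub_self]
  have hNform : N = (a - 1) • (1 : Matrix (Fin 2) (Fin 2) k) + b • g.1 := by
    rw [hN, hW, sub_smul, one_smul]; abel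
  have h1 : N.trace = 0 := trace_eq_zero_of_pow_eq_zero hNp
  have h2 : N.det = 0 := by
    have := congrArg Matrix.det hNp
    rw [Matrix.det_pow, Matrix.det_zero] at this
    exact (pow_eq_zero_iff hp.ne_zero).mp this
  rw [hNform, trace_smul_one_add_smul] at h1
  rw [hNform, det_smul_one_add_smul, hdet] at h2
  set t := g.1.trace with ht
  -- 2(a-1) + b t = 0 and (a-1)^2 + (a-1) b t + b^2 = 0
  have h2ne : (2 : k) ≠ 0 := by
    intro h
    apply htr
    have h4 : (4 : k) = 2 * 2 := by norm_num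
    have : t ^ 2 = t * t := sq t
    -- in char 2, t² = 4 = 0 iff t = 0; but we need another argument: use h1
    have hbt : b * t = 0 := by linear_combination h1 - (a - 1) * h
    have h40 : (4 : k) = 0 := by rw [h4, h, zero_mul]
    rw [h40]
    -- from h2 : (a-1)^2 + (a-1) b t + b^2 = 0 → (a-1)^2 + b^2 = 0 → (a - 1 + b)^2 = 0 (char 2)
    have hsum : (a - 1 + b) ^ 2 = 0 := by
      linear_combination h2 - (a - 1) * hbt + (a - 1) * b * h
    have hab' : a - 1 + b = 0 := by simpa using hsum
    -- then N = (a-1)(1 - g) ... we only need t² = 0; if b = 0 then N = 0, contradiction; else t = 0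
    by_cases hb : b = 0
    · exfalso
      apply hw1
      have ha : a - 1 = 0 := by rw [hb, add_zero] at hab'; exact hab'
      have : N = 0 := by rw [hNform, ha, hb]; simp
      have hw' : w.1 = 1 := sub_eq_zero.mp (hN ▸ this)
      exact Units.ext hw'
    · have : t = 0 := by
        rcases mul_eq_zero.mp hbt with h' | h'
        · exact absurd h' hb
        · exact h'
      rw [this]; ring
  have hb : b = 0 := by
    have hkey : b ^ 2 * (4 - t ^ 2) = 0 := by
      linear_combination 4 * h2 - (2 * (a - 1) + b * t) * h1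
    rcases mul_eq_zero.mp hkey with h | h
    · simpa using h
    · exact absurd (sub_eq_zero.mp h).symm htr
  have ha : a - 1 = 0 := by
    rw [hb] at h1
    have : 2 * (a - 1) = 0 := by simpa using h1
    rcases mul_eq_zero.mp this with h | h
    · exact absurd h h2ne
    · exact h
  apply hw1
  have : N = 0 := by rw [hNform, ha, hb]; simp
  have hw' : w.1 = 1 := sub_eq_zero.mp (hN ▸ this)
  exact Units.ext hw'

end order

section traceId

/-- THE TRACE IDENTITY: for a cocycle `c` on a finite subgroup `Γ ≤ GL₂(k)` (twisted adjoint action)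
and `g ∈ Γ` with `det g = 1`, `tr(g)² ≠ 4`: `tr(c(g)·g) = 0`. -/
theorem trace_cocycle_mul_self_eq_zero (p : ℕ) [Fact p.Prime] [CharP k p]
    (Γ : Subgroup (GL (Fin 2) k)) [Finite Γ]
    (c : Γ → Matrix (Fin 2) (Fin 2) k) (hc : IsCocycle (tad.comp Γ.subtype) c) (g : Γ)
    (hdet : g.1.1.det = 1) (htr : g.1.1.trace ^ 2 ≠ 4) :
    (c g * g.1.1).trace = 0 := by
  have hfin : IsOfFinOrder g.1 := by
    have h := isOfFinOrder_of_finite g
    rw [← orderOf_pos_iff] at h ⊢
    rwa [Subgroup.orderOf_coe]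
  have hnd := not_dvd_orderOf_of_trace_sq_ne_four p g.1 hfin hdet htr
  have hord : orderOf g = orderOf g.1 := (Subgroup.orderOf_coe g).symm
  have hpow := hc.map_pow g (orderOf g)
  rw [pow_orderOf_eq_one, hc.map_one] at hpow
  have hsum := congrArg (fun m => (m * g.1.1).trace) hpow
  simp only [Matrix.zero_mul, Matrix.trace_zero, Matrix.sum_mul, Matrix.trace_sum] at hsum
  have hdetu : ((Matrix.GeneralLinearGroup.det g.1 : kˣ) : k) = 1 := by
    rw [Matrix.GeneralLinearGroup.val_det_apply]; exact hdet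
  have hterm : ∀ i ∈ Finset.range (orderOf g),
      ((tad.comp Γ.subtype) (g ^ i) (c g) * g.1.1).trace = (c g * g.1.1).trace := by
    intro i _
    have : (tad.comp Γ.subtype) (g ^ i) = tad (g.1 ^ i) := by
      simp [MonoidHom.comp_apply]
    rw [this, trace_tad_mul_self, hdetu, one_pow, one_mul]
  rw [Finset.sum_congr rfl hterm, Finset.sum_const, Finset.card_range, nsmul_eq_mul] at hsum
  have hne : ((orderOf g : ℕ) : k) ≠ 0 := by
    rw [hord]
    intro h
    exact hnd ((CharP.cast_eq_zero_iff k p _).mp h)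
  rcases mul_eq_zero.mp hsum.symm with h | h
  · exact absurd h hne
  · exact h

end traceId

end Fermat.Agent.GP.TW.H1Dir
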