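/-
  GP/TW/H1Dir/FunEq.lean  (helper38)

  Step (4) of the direct proof of `H^1(Γ, ad⁰(det)) = 0` (board 3928): the purely
  field-theoretic endgame.  No groups, no matrices.

  Data: a field `k` of odd characteristic `p`, two additive subgroups `A A'` of `k`
  (the parameters of the upper / lower unipotent Sylow subgroups), two functions
  `al g : k → k` additive on `A`, resp. `A'` (the additive parts of the `e`-, resp.
  `f`-component of the cocycle), and constants `d3 d3' c0 c0'`.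

  The functional equation (E'):  for all `x ∈ A`, `μ ∈ A'` with `x μ ∉ {0, -4}`
    d3 x³ μ + d3' x μ³ + c0 x² + c0' μ² + μ al(x) + x g(μ) = 0 .

  Results
  * `funEq_of_five_lt`   : `5 < p`  ⟹  `d3 x³ μ = 0`-type consequences for ALL pairs, i.e.
        `d3 = d3' = c0 = c0' = 0` and `al = κ·id` on `A`, `g = -κ·id` on `A'`.
  * `funEq_lin`          : `p ≠ 2`, only the linear relation (`p = 3` case): same `κ`.
  * `funEq_of_exists_pow_ne` : `5 ≤ p` and one pair with `(x μ)^p ≠ x μ` (product outside the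
        prime field)  ⟹  the same conclusion.
  * `funEq_five_le`      : the dichotomy for `5 ≤ p` (the only interesting case is `p = 5`).
  * `cyclic_of_forall_pow_eq` : if all products `x μ` lie in the prime field then
        `A ⊆ 𝔽_p · x0` and `al = κ·id` on `A` automatically.
-/
import Mathlib

set_option autoImplicit false

namespace Fermat.Agent.GP.TW.H1Dir

open Polynomial

variable {k : Type*} [Field k]

/-- A polynomial `a3 t³ + a2 t² + a1 t + a0` with at least four roots is zero. -/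
theorem cubic_coeffs_eq_zero (a0 a1 a2 a3 : k) (s : Finset k) (hs : 4 ≤ s.card)
    (h : ∀ t ∈ s, a3 * t ^ 3 + a2 * t ^ 2 + a1 * t + a0 = 0) :
    a3 = 0 ∧ a2 = 0 ∧ a1 = 0 ∧ a0 = 0 := by
  have hzero : (Cubic.toPoly ⟨a3, a2, a1, a0⟩ : k[X]) = 0 := by
    apply Polynomial.eq_zero_of_natDegree_lt_card_of_eval_eq_zero' _ s
    · intro t ht
      simpa [Cubic.toPoly] using h t ht
    · have : (Cubic.toPoly ⟨a3, a2, a1, a0⟩ : k[X]).natDegree ≤ 3 := by
        simpa [Cubic.toPoly] using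
          (Polynomial.natDegree_cubic_le (a := a3) (b := a2) (c := a1) (d := a0))
      omega
  have ha := Cubic.coeff_eq_a (P := (⟨a3, a2, a1, a0⟩ : Cubic k))
  have hb := Cubic.coeff_eq_b (P := (⟨a3, a2, a1, a0⟩ : Cubic k))
  have hc := Cubic.coeff_eq_c (P := (⟨a3, a2, a1, a0⟩ : Cubic k))
  have hd := Cubic.coeff_eq_d (P := (⟨a3, a2, a1, a0⟩ : Cubic k))
  rw [hzero, coeff_zero] at ha hb hc hd
  exact ⟨ha.symm, hb.symm, hc.symm, hd.symm⟩

/-- A function additive on an additive subgroup vanishes at `0`. -/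
theorem additive_zero (A : AddSubgroup k) (al : k → k)
    (hal : ∀ x ∈ A, ∀ y ∈ A, al (x + y) = al x + al y) : al 0 = 0 := by
  have h := hal 0 A.zero_mem 0 A.zero_mem
  rw [add_zero] at h
  have : al 0 + al 0 = al 0 + 0 := by rw [add_zero]; exact h.symm
  exact add_left_cancel this

/-- `ℕ`-multiples stay in an additive subgroup. -/
theorem natCast_mul_mem (A : AddSubgroup k) {x : k} (hx : x ∈ A) (n : ℕ) :
    (n : k) * x ∈ A := by
  rw [← nsmul_eq_mul]
  exact A.nsmul_mem hx n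

/-- A function additive on an additive subgroup is `ℕ`-homogeneous there. -/
theorem additive_natCast_mul (A : AddSubgroup k) (al : k → k)
    (hal : ∀ x ∈ A, ∀ y ∈ A, al (x + y) = al x + al y) {x : k} (hx : x ∈ A) (n : ℕ) :
    al ((n : k) * x) = (n : k) * al x := by
  induction n with
  | zero => simp [additive_zero A al hal]
  | succ n ih =>
    have h1 : ((n + 1 : ℕ) : k) * x = (n : k) * x + x := by push_cast; ring
    rw [h1, hal _ (natCast_mul_mem A hx n) _ hx, ih]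
    push_cast; ring

section charp

variable (p : ℕ) [Fact p.Prime] [CharP k p]

/-- Natural number casts are fixed by the `p`-th power map in characteristic `p`. -/
theorem natCast_pow_char (n : ℕ) : ((n : k)) ^ p = (n : k) := by
  have := map_natCast (frobenius k p) n
  rwa [frobenius_def] at this

omit [Fact p.Prime] in
/-- For `0 < n < p` the cast of `n` is non-zero. -/
theorem natCast_ne_zero_of_lt {n : ℕ} (h0 : 0 < n) (hn : n < p) : (n : k) ≠ 0 := by
  intro h
  have := (CharP.cast_eq_zero_iff k p n).1 h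
  exact absurd (Nat.le_of_dvd h0 this) (not_le.2 hn)

/-- In characteristic `p` the fixed points of `y ↦ y ^ p` are the natural number casts. -/
theorem exists_natCast_of_pow_eq {y : k} (hy : y ^ p = y) : ∃ n : ℕ, y = (n : k) := by
  classical
  by_contra hcon
  push Not at hcon
  have hp1 : 1 < p := (Fact.out : p.Prime).one_lt
  set s : Finset k := insert y ((Finset.range p).image (Nat.cast : ℕ → k)) with hs
  have hinj : Set.InjOn (Nat.cast : ℕ → k) (Finset.range p : Set ℕ) := by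
    intro a ha b hb hab
    exact CharP.natCast_injOn_Iio k p (by simpa using ha) (by simpa using hb) hab
  have hcard : s.card = p + 1 := by
    rw [hs, Finset.card_insert_of_notMem, Finset.card_image_of_injOn hinj, Finset.card_range]
    intro hmem
    obtain ⟨n, -, hn⟩ := Finset.mem_image.1 hmem
    exact hcon n hn.symm
  have hzero : (X ^ p - X : k[X]) = 0 := by
    apply Polynomial.eq_zero_of_natDegree_lt_card_of_eval_eq_zero' _ s
    · intro t ht
      rw [hs, Finset.mem_insert] at ht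
      rcases ht with rfl | ht
      · simp [hy]
      · obtain ⟨n, -, rfl⟩ := Finset.mem_image.1 ht
        simp [natCast_pow_char p n]
    · rw [FiniteField.X_pow_card_sub_X_natDegree_eq k hp1, hcard]
      exact Nat.lt_succ_self p
  exact FiniteField.X_pow_card_sub_X_ne_zero k hp1 hzero

/-- If `n y = -4` with `0 < n < p` then `y` lies in the prime field. -/
theorem pow_eq_of_natCast_mul_eq {y : k} {n : ℕ} (h0 : 0 < n) (hn : n < p)
    (h : (n : k) * y = -4) : y ^ p = y := by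
  have hn0 : (n : k) ≠ 0 := natCast_ne_zero_of_lt p h0 hn
  have h4 : ((-4 : k)) ^ p = -4 := by
    have h4' : ((4 : ℕ) : k) ^ p = ((4 : ℕ) : k) := natCast_pow_char p 4
    have hodd : ((-1 : k)) ^ p = -1 := by
      rcases (Fact.out : p.Prime).eq_two_or_odd' with h2 | hodd
      · subst h2
        have : (2 : k) = 0 := by
          have := CharP.cast_eq_zero k 2
          exact_mod_cast this
        have h11 : (-1 : k) = 1 := by
          have : (1 : k) + 1 = 0 := by rw [one_add_one_eq_two]; exact this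
          exact (eq_neg_of_add_eq_zero_left this).symm
        rw [h11]; simp
      · exact hodd.neg_one_pow
    have : (-4 : k) = (-1) * ((4 : ℕ) : k) := by push_cast; ring
    rw [this, mul_pow, hodd, h4']
  have hy : y = -4 / (n : k) := by
    rw [eq_div_iff hn0, mul_comm]; exact h
  rw [hy, div_pow, h4, natCast_pow_char p n]

omit [Fact p.Prime] in
/-- Counting admissible multipliers: for `y ≠ 0` at most one `n ∈ (0, p)` has `n y = -4`. -/
theorem card_admissible_ge {y : k} (hy : y ≠ 0) :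
    ∃ N : Finset ℕ, p - 2 ≤ N.card ∧ ∀ n ∈ N, 0 < n ∧ n < p ∧ (n : k) * y ≠ -4 := by
  classical
  refine ⟨(Finset.Ioo 0 p).filter (fun n : ℕ => (n : k) * y ≠ -4), ?_, ?_⟩
  · have hsplit := Finset.card_filter_add_card_filter_not (s := Finset.Ioo 0 p)
      (fun n : ℕ => (n : k) * y ≠ -4)
    have hbad : ((Finset.Ioo 0 p).filter (fun n : ℕ => ¬ (n : k) * y ≠ -4)).card ≤ 1 := by
      rw [Finset.card_le_one]
      intro a ha b hb
      rw [Finset.mem_filter, Finset.mem_Ioo] at ha hb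
      have ha' : (a : k) * y = -4 := not_not.1 ha.2
      have hb' : (b : k) * y = -4 := not_not.1 hb.2
      have : (a : k) = (b : k) := mul_right_cancel₀ hy (ha'.trans hb'.symm)
      exact CharP.natCast_injOn_Iio k p ha.1.2 hb.1.2 this
    have hcard : (Finset.Ioo 0 p).card = p - 1 := by simp
    omega
  · intro n hn
    rw [Finset.mem_filter, Finset.mem_Ioo] at hn
    exact ⟨hn.1.1, hn.1.2, hn.2⟩

/-- If `y` is outside the prime field every `n ∈ (0, p)` is admissible. -/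
theorem card_admissible_of_pow_ne {y : k} (hy : y ^ p ≠ y) :
    ∃ N : Finset ℕ, p - 1 ≤ N.card ∧ ∀ n ∈ N, 0 < n ∧ n < p ∧ (n : k) * y ≠ -4 := by
  refine ⟨Finset.Ioo 0 p, by simp, ?_⟩
  intro n hn
  rw [Finset.mem_Ioo] at hn
  exact ⟨hn.1, hn.2, fun h => hy (pow_eq_of_natCast_mul_eq p hn.1 hn.2 h)⟩

variable (A A' : AddSubgroup k) (al g : k → k) (d3 d3' c0 c0' : k)

/-- The functional equation (E') of board 3928. -/
def FunEqHolds : Prop :=
  ∀ x ∈ A, ∀ μ ∈ A', x * μ ≠ 0 → x * μ ≠ -4 →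
    d3 * x ^ 3 * μ + d3' * x * μ ^ 3 + c0 * x ^ 2 + c0' * μ ^ 2 + μ * al x + x * g μ = 0

/-- The functional equation is symmetric under exchanging the two sides. -/
theorem FunEqHolds.symm {A A' : AddSubgroup k} {al g : k → k} {d3 d3' c0 c0' : k}
    (h : FunEqHolds A A' al g d3 d3' c0 c0') : FunEqHolds A' A g al d3' d3 c0' c0 := by
  intro μ hμ x hx h0 h4
  have := h x hx μ hμ (by rwa [mul_comm]) (by rwa [mul_comm])
  rw [← this]; ring

variable {A A' al g d3 d3' c0 c0'}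

omit [Fact p.Prime] in
/-- One pair with at least four admissible multipliers kills the four coefficients of the
cubic in the multiplier. -/
theorem pair_coeffs (hal : ∀ x ∈ A, ∀ y ∈ A, al (x + y) = al x + al y)
    (hE : FunEqHolds A A' al g d3 d3' c0 c0') {x μ : k} (hx : x ∈ A) (hμ : μ ∈ A')
    (hxμ : x * μ ≠ 0) (N : Finset ℕ) (hcount : 4 ≤ N.card)
    (hN : ∀ n ∈ N, 0 < n ∧ n < p ∧ (n : k) * (x * μ) ≠ -4) :
    d3 * x ^ 3 * μ = 0 ∧ c0 * x ^ 2 = 0 ∧
      d3' * x * μ ^ 3 + μ * al x + x * g μ = 0 ∧ c0' * μ ^ 2 = 0 := by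
  classical
  have hinj : Set.InjOn (Nat.cast : ℕ → k) (N : Set ℕ) := by
    intro a ha b hb hab
    have ha' := hN a (Finset.mem_coe.1 ha)
    have hb' := hN b (Finset.mem_coe.1 hb)
    exact CharP.natCast_injOn_Iio k p ha'.2.1 hb'.2.1 hab
  have hcard : 4 ≤ (N.image (Nat.cast : ℕ → k)).card := by
    rw [Finset.card_image_of_injOn hinj]; exact hcount
  have key := cubic_coeffs_eq_zero (c0' * μ ^ 2) (d3' * x * μ ^ 3 + μ * al x + x * g μ)
    (c0 * x ^ 2) (d3 * x ^ 3 * μ) (N.image (Nat.cast : ℕ → k)) hcard (by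
      intro t ht
      obtain ⟨n, hn, rfl⟩ := Finset.mem_image.1 ht
      have hn := hN n hn
      have hn0 : (n : k) ≠ 0 := natCast_ne_zero_of_lt p hn.1 hn.2.1
      have h1 : (n : k) * x * μ ≠ 0 := by
        rw [mul_assoc]; exact mul_ne_zero hn0 hxμ
      have h2 : (n : k) * x * μ ≠ -4 := by
        rw [mul_assoc]; exact hn.2.2
      have := hE _ (natCast_mul_mem A hx n) μ hμ h1 h2
      rw [additive_natCast_mul A al hal hx n] at this
      rw [← this]; ring)
  exact ⟨key.1, key.2.1, key.2.2.1, key.2.2.2⟩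

/-- From the linear relation on all pairs to the common slope `κ`. -/
theorem exists_kappa_of_lin (hal : ∀ x ∈ A, ∀ y ∈ A, al (x + y) = al x + al y)
    (hg : ∀ x ∈ A', ∀ y ∈ A', g (x + y) = g x + g y)
    (hA : ∃ x ∈ A, x ≠ 0) (hA' : ∃ μ ∈ A', μ ≠ 0)
    (hlin : ∀ x ∈ A, ∀ μ ∈ A', x ≠ 0 → μ ≠ 0 → μ * al x + x * g μ = 0) :
    ∃ κ : k, (∀ x ∈ A, al x = κ * x) ∧ (∀ μ ∈ A', g μ = -κ * μ) := by
  obtain ⟨x1, hx1, hx10⟩ := hA
  obtain ⟨μ1, hμ1, hμ10⟩ := hA'
  refine ⟨al x1 / x1, ?_, ?_⟩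
  · intro x hx
    by_cases hx0 : x = 0
    · subst hx0; simp [additive_zero A al hal]
    · have e1 := hlin x hx μ1 hμ1 hx0 hμ10
      have e2 := hlin x1 hx1 μ1 hμ1 hx10 hμ10
      have hgμ : g μ1 = -(μ1 * al x1) / x1 := by
        rw [eq_div_iff hx10]; linear_combination e2
      have : μ1 * al x = μ1 * (al x1 / x1 * x) := by
        have : μ1 * al x = -(x * g μ1) := by linear_combination e1
        rw [this, hgμ]; field_simp
      exact mul_left_cancel₀ hμ10 this
  · intro μ hμ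
    by_cases hμ0 : μ = 0
    · subst hμ0; simp [additive_zero A' g hg]
    · have e1 := hlin x1 hx1 μ hμ hx10 hμ0
      rw [eq_comm, ← sub_eq_zero]
      have : x1 * (-(al x1 / x1) * μ - g μ) = 0 := by
        have : x1 * (-(al x1 / x1) * μ - g μ) = -(μ * al x1 + x1 * g μ) := by
          field_simp; ring
        rw [this, e1, neg_zero]
      rcases mul_eq_zero.1 this with h | h
      · exact absurd h hx10
      · exact h

/-- In odd characteristic, the linear relation on admissible pairs extends to all non-zero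
pairs: replace `x` by `2 x` if `x μ = -4`. -/
theorem lin_all_of_admissible (hp2 : p ≠ 2)
    (hal : ∀ x ∈ A, ∀ y ∈ A, al (x + y) = al x + al y)
    (hlin : ∀ x ∈ A, ∀ μ ∈ A', x * μ ≠ 0 → x * μ ≠ -4 → μ * al x + x * g μ = 0) :
    ∀ x ∈ A, ∀ μ ∈ A', x ≠ 0 → μ ≠ 0 → μ * al x + x * g μ = 0 := by
  intro x hx μ hμ hx0 hμ0
  have hxμ : x * μ ≠ 0 := mul_ne_zero hx0 hμ0
  have h2 : (2 : k) ≠ 0 := by
    intro h
    have h' : ((2 : ℕ) : k) = 0 := by exact_mod_cast h
    have := (CharP.cast_eq_zero_iff k p 2).1 h'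
    have hp := (Nat.prime_dvd_prime_iff_eq (Fact.out : p.Prime) Nat.prime_two).1 this
    exact hp2 hp
  by_cases h4 : x * μ = -4
  · have hx2 : ((2 : ℕ) : k) * x ∈ A := natCast_mul_mem A hx 2
    have e0 : ((2 : ℕ) : k) * x * μ ≠ 0 := by
      push_cast; rw [mul_assoc]; exact mul_ne_zero h2 hxμ
    have e4 : ((2 : ℕ) : k) * x * μ ≠ -4 := by
      push_cast; rw [mul_assoc, h4]
      intro h
      have : (2 : k) * 2 = 0 := by linear_combination -h
      exact mul_ne_zero h2 h2 this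
    have := hlin _ hx2 μ hμ e0 e4
    rw [additive_natCast_mul A al hal hx 2] at this
    push_cast at this
    have h' : (2 : k) * (μ * al x + x * g μ) = 0 := by rw [← this]; ring
    rcases mul_eq_zero.1 h' with h | h
    · exact absurd h h2
    · exact h
  · exact hlin x hx μ hμ hxμ h4

/-- **Linear case** (`p = 3`, or after the cubic part has been killed): the linear relation on
admissible pairs forces `al = κ·id`, `g = -κ·id`. -/
theorem funEq_lin (hp2 : p ≠ 2)
    (hal : ∀ x ∈ A, ∀ y ∈ A, al (x + y) = al x + al y)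
    (hg : ∀ x ∈ A', ∀ y ∈ A', g (x + y) = g x + g y)
    (hA : ∃ x ∈ A, x ≠ 0) (hA' : ∃ μ ∈ A', μ ≠ 0)
    (hlin : ∀ x ∈ A, ∀ μ ∈ A', x * μ ≠ 0 → x * μ ≠ -4 → μ * al x + x * g μ = 0) :
    ∃ κ : k, (∀ x ∈ A, al x = κ * x) ∧ (∀ μ ∈ A', g μ = -κ * μ) :=
  exists_kappa_of_lin hal hg hA hA' (lin_all_of_admissible p hp2 hal hlin)

/-- Once the four constants vanish, (E') is the linear relation. -/
theorem funEq_of_consts_zero (hp2 : p ≠ 2)
    (hal : ∀ x ∈ A, ∀ y ∈ A, al (x + y) = al x + al y)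
    (hg : ∀ x ∈ A', ∀ y ∈ A', g (x + y) = g x + g y)
    (hA : ∃ x ∈ A, x ≠ 0) (hA' : ∃ μ ∈ A', μ ≠ 0)
    (hE : FunEqHolds A A' al g 0 0 0 0) :
    ∃ κ : k, (∀ x ∈ A, al x = κ * x) ∧ (∀ μ ∈ A', g μ = -κ * μ) := by
  refine funEq_lin p hp2 hal hg hA hA' ?_
  intro x hx μ hμ h0 h4
  have := hE x hx μ hμ h0 h4
  simpa using this

/-- **Main case** `5 < p` (i.e. `p ≥ 7`): the functional equation kills all four constants and
forces `al = κ·id` on `A`, `g = -κ·id` on `A'`. -/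
theorem funEq_of_five_lt (hp : 5 < p)
    (hal : ∀ x ∈ A, ∀ y ∈ A, al (x + y) = al x + al y)
    (hg : ∀ x ∈ A', ∀ y ∈ A', g (x + y) = g x + g y)
    (hA : ∃ x ∈ A, x ≠ 0) (hA' : ∃ μ ∈ A', μ ≠ 0)
    (hE : FunEqHolds A A' al g d3 d3' c0 c0') :
    d3 = 0 ∧ d3' = 0 ∧ c0 = 0 ∧ c0' = 0 ∧
      ∃ κ : k, (∀ x ∈ A, al x = κ * x) ∧ (∀ μ ∈ A', g μ = -κ * μ) := by
  obtain ⟨x1, hx1, hx10⟩ := hA
  obtain ⟨μ1, hμ1, hμ10⟩ := hA'
  have hxμ : x1 * μ1 ≠ 0 := mul_ne_zero hx10 hμ10
  obtain ⟨N, hNc, hN⟩ := card_admissible_ge p hxμ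
  have hcnt : 4 ≤ N.card := le_trans (by omega) hNc
  have hN' : ∀ n ∈ N, 0 < n ∧ n < p ∧ (n : k) * (μ1 * x1) ≠ -4 := by
    intro n hn; rw [mul_comm μ1 x1]; exact hN n hn
  obtain ⟨e3, e2, -, e0⟩ := pair_coeffs p hal hE hx1 hμ1 hxμ N hcnt hN
  obtain ⟨e3', -, -, -⟩ := pair_coeffs p hg hE.symm hμ1 hx1 (by rwa [mul_comm]) N hcnt hN'
  have hd3 : d3 = 0 := by
    rcases mul_eq_zero.1 e3 with h | h
    · rcases mul_eq_zero.1 h with h | h
      · exact h
      · exact absurd (pow_eq_zero_iff (by norm_num) |>.1 h) hx10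
    · exact absurd h hμ10
  have hd3' : d3' = 0 := by
    rcases mul_eq_zero.1 e3' with h | h
    · rcases mul_eq_zero.1 h with h | h
      · exact h
      · exact absurd (pow_eq_zero_iff (by norm_num) |>.1 h) hμ10
    · exact absurd h hx10
  have hc0 : c0 = 0 := by
    rcases mul_eq_zero.1 e2 with h | h
    · exact h
    · exact absurd (pow_eq_zero_iff (by norm_num) |>.1 h) hx10
  have hc0' : c0' = 0 := by
    rcases mul_eq_zero.1 e0 with h | h
    · exact h
    · exact absurd (pow_eq_zero_iff (by norm_num) |>.1 h) hμ10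
  subst hd3 hd3' hc0 hc0'
  have hp2 : p ≠ 2 := by omega
  exact ⟨rfl, rfl, rfl, rfl,
    funEq_of_consts_zero p hp2 hal hg ⟨x1, hx1, hx10⟩ ⟨μ1, hμ1, hμ10⟩ hE⟩

/-- **Case of a product outside the prime field** (`5 ≤ p`; the relevant case is `p = 5`): one
pair `x μ` with `(x μ)^p ≠ x μ` gives four admissible multipliers, hence the same conclusion
as for `p ≥ 7`. -/
theorem funEq_of_exists_pow_ne (hp : 5 ≤ p)
    (hal : ∀ x ∈ A, ∀ y ∈ A, al (x + y) = al x + al y)
    (hg : ∀ x ∈ A', ∀ y ∈ A', g (x + y) = g x + g y)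
    (hE : FunEqHolds A A' al g d3 d3' c0 c0')
    {x1 μ1 : k} (hx1 : x1 ∈ A) (hμ1 : μ1 ∈ A') (hne : (x1 * μ1) ^ p ≠ x1 * μ1) :
    d3 = 0 ∧ d3' = 0 ∧ c0 = 0 ∧ c0' = 0 ∧
      ∃ κ : k, (∀ x ∈ A, al x = κ * x) ∧ (∀ μ ∈ A', g μ = -κ * μ) := by
  have hp0 : p ≠ 0 := by omega
  have hxμ : x1 * μ1 ≠ 0 := by
    intro h; rw [h, zero_pow hp0] at hne; exact hne rfl
  have hx10 : x1 ≠ 0 := left_ne_zero_of_mul hxμ
  have hμ10 : μ1 ≠ 0 := right_ne_zero_of_mul hxμ
  obtain ⟨N, hNc, hN⟩ := card_admissible_of_pow_ne p hne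
  have hcnt : 4 ≤ N.card := le_trans (by omega) hNc
  have hN' : ∀ n ∈ N, 0 < n ∧ n < p ∧ (n : k) * (μ1 * x1) ≠ -4 := by
    intro n hn; rw [mul_comm μ1 x1]; exact hN n hn
  obtain ⟨e3, e2, -, e0⟩ := pair_coeffs p hal hE hx1 hμ1 hxμ N hcnt hN
  obtain ⟨e3', -, -, -⟩ := pair_coeffs p hg hE.symm hμ1 hx1 (by rwa [mul_comm]) N hcnt hN'
  have hd3 : d3 = 0 := by
    rcases mul_eq_zero.1 e3 with h | h
    · rcases mul_eq_zero.1 h with h | h
      · exact h
      · exact absurd (pow_eq_zero_iff (by norm_num) |>.1 h) hx10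
    · exact absurd h hμ10
  have hd3' : d3' = 0 := by
    rcases mul_eq_zero.1 e3' with h | h
    · rcases mul_eq_zero.1 h with h | h
      · exact h
      · exact absurd (pow_eq_zero_iff (by norm_num) |>.1 h) hμ10
    · exact absurd h hx10
  have hc0 : c0 = 0 := by
    rcases mul_eq_zero.1 e2 with h | h
    · exact h
    · exact absurd (pow_eq_zero_iff (by norm_num) |>.1 h) hx10
  have hc0' : c0' = 0 := by
    rcases mul_eq_zero.1 e0 with h | h
    · exact h
    · exact absurd (pow_eq_zero_iff (by norm_num) |>.1 h) hμ10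
  subst hd3 hd3' hc0 hc0'
  have hp2 : p ≠ 2 := by omega
  exact ⟨rfl, rfl, rfl, rfl,
    funEq_of_consts_zero p hp2 hal hg ⟨x1, hx1, hx10⟩ ⟨μ1, hμ1, hμ10⟩ hE⟩

/-- **Dichotomy for `5 ≤ p`** (`p = 5` is the only case where the second alternative is
needed): either the full conclusion holds, or all products `x μ` lie in the prime field. -/
theorem funEq_five_le (hp : 5 ≤ p)
    (hal : ∀ x ∈ A, ∀ y ∈ A, al (x + y) = al x + al y)
    (hg : ∀ x ∈ A', ∀ y ∈ A', g (x + y) = g x + g y)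
    (hE : FunEqHolds A A' al g d3 d3' c0 c0') :
    (d3 = 0 ∧ d3' = 0 ∧ c0 = 0 ∧ c0' = 0 ∧
      ∃ κ : k, (∀ x ∈ A, al x = κ * x) ∧ (∀ μ ∈ A', g μ = -κ * μ)) ∨
    (∀ x ∈ A, ∀ μ ∈ A', (x * μ) ^ p = x * μ) := by
  by_cases h : ∀ x ∈ A, ∀ μ ∈ A', (x * μ) ^ p = x * μ
  · exact Or.inr h
  · push Not at h
    obtain ⟨x1, hx1, μ1, hμ1, hne⟩ := h
    exact Or.inl (funEq_of_exists_pow_ne p hp hal hg hE hx1 hμ1 hne)

/-- **Cyclic case**: if all products `x μ` lie in the prime field (and `A' ≠ 0`) then `A` is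
contained in the `𝔽_p`-line through any of its non-zero elements. -/
theorem cyclic_of_forall_pow_eq (hA' : ∃ μ ∈ A', μ ≠ 0)
    (h : ∀ x ∈ A, ∀ μ ∈ A', (x * μ) ^ p = x * μ) {x0 : k} (hx0 : x0 ∈ A) (hx00 : x0 ≠ 0) :
    ∀ x ∈ A, ∃ n : ℕ, x = (n : k) * x0 := by
  obtain ⟨μ1, hμ1, hμ10⟩ := hA'
  intro x hx
  have e1 := h x hx μ1 hμ1
  have e0 := h x0 hx0 μ1 hμ1
  have hq : (x / x0) ^ p = x / x0 := by
    have : x / x0 = (x * μ1) / (x0 * μ1) := by field_simp
    rw [this, div_pow, e1, e0]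
  obtain ⟨n, hn⟩ := exists_natCast_of_pow_eq p hq
  exact ⟨n, by rw [← hn]; field_simp⟩

/-- In the cyclic case an additive function on `A` is automatically a multiple of the
inclusion. -/
theorem exists_kappa_of_cyclic (hal : ∀ x ∈ A, ∀ y ∈ A, al (x + y) = al x + al y)
    {x0 : k} (hx0 : x0 ∈ A) (hx00 : x0 ≠ 0) (hcyc : ∀ x ∈ A, ∃ n : ℕ, x = (n : k) * x0) :
    ∃ κ : k, ∀ x ∈ A, al x = κ * x := by
  refine ⟨al x0 / x0, ?_⟩
  intro x hx
  obtain ⟨n, rfl⟩ := hcyc x hx
  rw [additive_natCast_mul A al hal hx0 n]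
  field_simp

/-- In the cyclic case, a scalar `τ` with `τ • A ⊆ A` lies in the prime field:
`τ ^ p = τ` (so `τ ^ (p - 1) = 1` when `τ ≠ 0`). -/
theorem pow_eq_of_mul_mem_of_cyclic {x0 : k} (hx00 : x0 ≠ 0)
    (hcyc : ∀ x ∈ A, ∃ n : ℕ, x = (n : k) * x0) {τ : k} (hτ : τ * x0 ∈ A) :
    τ ^ p = τ := by
  obtain ⟨n, hn⟩ := hcyc _ hτ
  have : τ = (n : k) := mul_right_cancel₀ hx00 hn
  rw [this, natCast_pow_char p n]

end charp

end Fermat.Agent.GP.TW.H1Dir
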