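/-
  GP/TW/H1Dir/Frattini5.lean  (helper38)

  The `p = 5` exceptional step of the direct proof of `H^1(Γ, ad⁰(det)) = 0` (board 3928):
  when the Sylow subgroup `P = u(A)` is cyclic (`A = 𝔽₅ x0`), the cubic class `c0` of the
  restricted cocycle is killed by one element `t = [[a, b], [0, d]]` of `N_Γ(P)` with
  `a ≠ d ^ 3`; such a `t` exists as soon as `det Γ` contains an element whose square is not `1`
  (Frattini argument with `N = ker det`).

  * `exists_mem_normalizer_map_eq` : Frattini in hom form (any finite group, any hom `f` trivial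
    on a Sylow subgroup `P`: every value of `f` is taken on `N(P)`).
  * `upper_of_conj_unipotent`      : a matrix conjugating `u(x0)`, `x0 ≠ 0`, to `u(y)` is upper
    triangular with `a x0 = y d`.
  * `det_sq_eq_one_of_torus`       : `τ ^ 4 = 1`, `a = τ d`, `a = d ^ 3` ⟹ `(a d) ^ 2 = 1`.
  * `c0_eq_zero_of_five`           : the assembled statement.
-/
import Mathlib
import Fermat.Agent.GP.TW.H1Dir.FunEq

set_option autoImplicit false

namespace Fermat.Agent.GP.TW.H1Dir

open Matrix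

/-- **Frattini argument in hom form.** If a homomorphism `f` is trivial on a Sylow
`p`-subgroup `P` of a finite group `G`, then every value of `f` is already taken on the
normaliser of `P`. -/
theorem exists_mem_normalizer_map_eq {G D : Type*} [Group G] [Finite G] [Group D]
    (p : ℕ) [Fact p.Prime] (f : G →* D) (P : Sylow p G) (hP : (P : Subgroup G) ≤ f.ker)
    (γ : G) : ∃ t ∈ Subgroup.normalizer ((P : Subgroup G) : Set G), f t = f γ := by
  have h := Sylow.normalizer_sup_eq_top' (N := f.ker) P hP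
  have hγ : γ ∈ Subgroup.normalizer ((P : Subgroup G) : Set G) ⊔ f.ker := by
    have h' : Subgroup.normalizer ((P : Subgroup G) : Set G) ⊔ f.ker = ⊤ := h
    rw [h']; exact Subgroup.mem_top γ
  obtain ⟨t, ht, n, hn, rfl⟩ := Subgroup.mem_sup_of_normal_right.1 hγ
  refine ⟨t, ht, ?_⟩
  rw [map_mul, MonoidHom.mem_ker.1 hn, mul_one]

variable {k : Type*} [Field k]

/-- A matrix `t` with `t · u(x0) = u(y) · t`, `x0 ≠ 0`, is upper triangular, and
`t₀₀ x0 = y t₁₁`. -/
theorem upper_of_conj_unipotent (t : Matrix (Fin 2) (Fin 2) k) {x0 y : k} (hx0 : x0 ≠ 0)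
    (h : t * !![1, x0; 0, 1] = !![1, y; 0, 1] * t) :
    t 1 0 = 0 ∧ t 0 0 * x0 = y * t 1 1 := by
  have h11 := congrFun (congrFun h 1) 1
  have h01 := congrFun (congrFun h 0) 1
  simp [Matrix.mul_apply, Fin.sum_univ_two] at h11 h01
  refine ⟨?_, ?_⟩
  · rcases h11 with h | h
    · exact h
    · exact absurd h hx0
  · linear_combination h01

/-- The numerical contradiction of the torus step: `τ = a / d` a fourth root of unity and
`a = d ^ 3` force `det = a d` to be `± 1`. -/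
theorem det_sq_eq_one_of_torus {a d τ : k} (hd : d ≠ 0) (hτ : τ ^ 4 = 1) (hτd : a = τ * d)
    (h : a = d ^ 3) : (a * d) ^ 2 = 1 := by
  have h1 : τ = d ^ 2 := by
    have : τ * d = d ^ 2 * d := by rw [← hτd, h]; ring
    exact mul_right_cancel₀ hd this
  have : (a * d) ^ 2 = τ ^ 4 := by rw [hτd]; rw [h1]; ring
  rw [this, hτ]

/-- **The `p = 5` cyclic case.**  `G` finite, `ρ : G →* GL₂(k)`, `char k = 5`, `P` a Sylow
`5`-subgroup whose `ρ`-image is `u(A)` with `A ⊆ 𝔽₅ x0` cyclic.  Suppose the constant `c0`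
satisfies the torus identity `c0 (a - d ^ 3) = 0` for every `t ∈ N_G(P)` with
`ρ t = [[a, b], [0, d]]` (this is the `f`-component of
`c(t u t⁻¹) = t·c(u) + (1 - t u t⁻¹)·c(t)`), and that some `γ ∈ G` has `det(ρ γ)² ≠ 1`.
Then `c0 = 0`. -/
theorem c0_eq_zero_of_five {G : Type*} [Group G] [Finite G] [CharP k 5]
    (ρ : G →* GL (Fin 2) k) (P : Sylow 5 G) (A : AddSubgroup k)
    (hPA : ∀ g ∈ (P : Subgroup G), ∃ x ∈ A, (ρ g : Matrix (Fin 2) (Fin 2) k) = !![1, x; 0, 1])
    {x0 : k} (hx00 : x0 ≠ 0) (hcyc : ∀ x ∈ A, ∃ n : ℕ, x = (n : k) * x0)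
    {g0 : G} (hg0 : g0 ∈ (P : Subgroup G))
    (hg0ρ : (ρ g0 : Matrix (Fin 2) (Fin 2) k) = !![1, x0; 0, 1])
    (c0 : k)
    (hc0 : ∀ t ∈ Subgroup.normalizer ((P : Subgroup G) : Set G), ∀ a b d : k,
      (ρ t : Matrix (Fin 2) (Fin 2) k) = !![a, b; 0, d] → c0 * (a - d ^ 3) = 0)
    (hdet : ∃ γ : G, (Matrix.det (ρ γ : Matrix (Fin 2) (Fin 2) k)) ^ 2 ≠ 1) :
    c0 = 0 := by
  have : Fact (Nat.Prime 5) := ⟨by norm_num⟩
  obtain ⟨γ, hγ⟩ := hdet
  -- the determinant hom
  let f : G →* kˣ := (Matrix.GeneralLinearGroup.det).comp ρ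
  have hPker : (P : Subgroup G) ≤ f.ker := by
    intro g hg
    obtain ⟨x, -, hx⟩ := hPA g hg
    rw [MonoidHom.mem_ker]
    apply Units.ext
    simp only [f, MonoidHom.comp_apply, Matrix.GeneralLinearGroup.val_det_apply, Units.val_one]
    rw [hx]; simp [Matrix.det_fin_two]
  obtain ⟨t, ht, hft⟩ := exists_mem_normalizer_map_eq 5 f P hPker γ
  have hdett : Matrix.det (ρ t : Matrix (Fin 2) (Fin 2) k)
      = Matrix.det (ρ γ : Matrix (Fin 2) (Fin 2) k) := by
    have := congrArg Units.val hft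
    simpa [f, MonoidHom.comp_apply, Matrix.GeneralLinearGroup.val_det_apply] using this
  -- `t g0 t⁻¹ ∈ P`
  have hconj : t * g0 * t⁻¹ ∈ (P : Subgroup G) :=
    (Subgroup.mem_normalizer_iff.1 ht g0).1 hg0
  obtain ⟨y, hyA, hy⟩ := hPA _ hconj
  have hmat : (ρ t : Matrix (Fin 2) (Fin 2) k) * !![1, x0; 0, 1]
      = !![1, y; 0, 1] * (ρ t : Matrix (Fin 2) (Fin 2) k) := by
    have h1 : ρ (t * g0 * t⁻¹) * ρ t = ρ t * ρ g0 := by
      rw [← map_mul, ← map_mul]; congr 1; group
    have h2 := congrArg (fun u : GL (Fin 2) k => (u : Matrix (Fin 2) (Fin 2) k)) h1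
    simp only [Matrix.GeneralLinearGroup.coe_mul] at h2
    rw [hy, hg0ρ] at h2
    exact h2.symm
  obtain ⟨h10, h00⟩ := upper_of_conj_unipotent _ hx00 hmat
  set T : Matrix (Fin 2) (Fin 2) k := (ρ t : Matrix (Fin 2) (Fin 2) k) with hT
  have hTform : T = !![T 0 0, T 0 1; 0, T 1 1] := by
    ext i j
    fin_cases i <;> fin_cases j <;> simp [h10]
  have hdetT : T.det = T 0 0 * T 1 1 := by
    rw [Matrix.det_fin_two, h10]; ring
  have hdet0 : T.det ≠ 0 := by
    have := Matrix.isUnits_det_units (ρ t)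
    exact this.ne_zero
  have hd : T 1 1 ≠ 0 := by
    intro h; rw [hdetT, h, mul_zero] at hdet0; exact hdet0 rfl
  have ha : T 0 0 ≠ 0 := by
    intro h; rw [hdetT, h, zero_mul] at hdet0; exact hdet0 rfl
  by_contra hc
  have hcube : T 0 0 = T 1 1 ^ 3 := by
    have := hc0 t ht (T 0 0) (T 0 1) (T 1 1) hTform
    rcases mul_eq_zero.1 this with h | h
    · exact absurd h hc
    · exact sub_eq_zero.1 h
  -- `τ = a / d` preserves `A`
  set τ : k := T 0 0 / T 1 1 with hτ
  have hτx0 : τ * x0 = y := by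
    rw [hτ, div_mul_eq_mul_div, h00, mul_div_assoc, div_self hd, mul_one]
  have hτ5 : τ ^ 5 = τ := pow_eq_of_mul_mem_of_cyclic 5 hx00 hcyc (by rw [hτx0]; exact hyA)
  have hτ0 : τ ≠ 0 := div_ne_zero ha hd
  have hτ4 : τ ^ 4 = 1 := by
    have : τ ^ 4 * τ = 1 * τ := by rw [one_mul, ← pow_succ]; exact hτ5
    exact mul_right_cancel₀ hτ0 this
  have hτd : T 0 0 = τ * T 1 1 := by rw [hτ, div_mul_cancel₀ _ hd]
  have hsq := det_sq_eq_one_of_torus hd hτ4 hτd hcube
  apply hγ
  rw [← hdett, hdetT]; exact hsq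

end Fermat.Agent.GP.TW.H1Dir
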