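/-
S56 [P-TW] (GT1), helper52: cocycles on the upper unipotent elements of a finite subgroup of GL₂(k)
in "normal position", and the functional equation coming from the trace identity on `u_x v_μ`.
Mathlib only.
-/
import Fermat.Agent.GP.TW.H1Dir.TraceId

set_option autoImplicit false

namespace Fermat.Agent.GP.TW.H1Dir

open Matrix

variable {k : Type*} [Field k]

/-- upper unipotent matrix -/
def uMat (x : k) : Matrix (Fin 2) (Fin 2) k := !![1, x; 0, 1]
/-- lower unipotent matrix -/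
def vMat (μ : k) : Matrix (Fin 2) (Fin 2) k := !![1, 0; μ, 1]

theorem uMat_mul (x y : k) : uMat x * uMat y = uMat (x + y) := by
  ext i j; fin_cases i <;> fin_cases j <;> simp [uMat, Matrix.mul_apply, Fin.sum_univ_two, add_comm]

theorem vMat_mul (x y : k) : vMat x * vMat y = vMat (x + y) := by
  ext i j; fin_cases i <;> fin_cases j <;> simp [vMat, Matrix.mul_apply, Fin.sum_univ_two]

theorem uMat_zero : uMat (0 : k) = 1 := by
  ext i j; fin_cases i <;> fin_cases j <;> simp [uMat]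

theorem vMat_zero : vMat (0 : k) = 1 := by
  ext i j; fin_cases i <;> fin_cases j <;> simp [vMat]

/-- `u_x` as an element of `GL₂(k)`. -/
def uGL (x : k) : GL (Fin 2) k :=
  ⟨uMat x, uMat (-x), by rw [uMat_mul, add_neg_cancel, uMat_zero],
    by rw [uMat_mul, neg_add_cancel, uMat_zero]⟩

/-- `v_μ` as an element of `GL₂(k)`. -/
def vGL (μ : k) : GL (Fin 2) k :=
  ⟨vMat μ, vMat (-μ), by rw [vMat_mul, add_neg_cancel, vMat_zero],
    by rw [vMat_mul, neg_add_cancel, vMat_zero]⟩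

@[simp] theorem uGL_val (x : k) : (uGL x).1 = uMat x := rfl
@[simp] theorem vGL_val (x : k) : (vGL x).1 = vMat x := rfl
@[simp] theorem uGL_inv_val (x : k) : ((uGL x)⁻¹).1 = uMat (-x) := rfl
@[simp] theorem vGL_inv_val (x : k) : ((vGL x)⁻¹).1 = vMat (-x) := rfl

theorem uGL_mul (x y : k) : uGL x * uGL y = uGL (x + y) := Units.ext (uMat_mul x y)
theorem vGL_mul (x y : k) : vGL x * vGL y = vGL (x + y) := Units.ext (vMat_mul x y)
theorem uGL_zero : uGL (0 : k) = 1 := Units.ext uMat_zero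

theorem det_uMat (x : k) : (uMat x).det = 1 := by simp [uMat, Matrix.det_fin_two]
theorem det_vMat (x : k) : (vMat x).det = 1 := by simp [vMat, Matrix.det_fin_two]

theorem det_uGL (x : k) : ((Matrix.GeneralLinearGroup.det (uGL x) : kˣ) : k) = 1 := by
  rw [Matrix.GeneralLinearGroup.val_det_apply]; exact det_uMat x

theorem det_vGL (x : k) : ((Matrix.GeneralLinearGroup.det (vGL x) : kˣ) : k) = 1 := by
  rw [Matrix.GeneralLinearGroup.val_det_apply]; exact det_vMat x

theorem tad_uGL (x : k) (m : Matrix (Fin 2) (Fin 2) k) :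
    tad (uGL x) m = uMat x * m * uMat (-x) := by
  rw [tad_apply, det_uGL, one_smul]; rfl

theorem tad_vGL (x : k) (m : Matrix (Fin 2) (Fin 2) k) :
    tad (vGL x) m = vMat x * m * vMat (-x) := by
  rw [tad_apply, det_vGL, one_smul]; rfl

theorem uMat_conj_of (x a b c d : k) :
    uMat x * !![a, b; c, d] * uMat (-x)
      = !![a + x * c, b + x * d - x * a - x ^ 2 * c; c, d - x * c] := by
  simp only [uMat, Matrix.mul_fin_two]
  ext i j; fin_cases i <;> fin_cases j <;> simp <;> ring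

/-- entries of `u_x m u_{-x}` -/
theorem uMat_conj_apply (x : k) (m : Matrix (Fin 2) (Fin 2) k) :
    uMat x * m * uMat (-x)
      = !![m 0 0 + x * m 1 0, m 0 1 + x * m 1 1 - x * m 0 0 - x ^ 2 * m 1 0;
           m 1 0, m 1 1 - x * m 1 0] := by
  conv_lhs => rw [Matrix.eta_fin_two m]
  rw [uMat_conj_of]

section NP

variable (Γ : Subgroup (GL (Fin 2) k))

/-- the additive group `A = {x | u_x ∈ Γ}` -/
def unipAdd : AddSubgroup k where
  carrier := {x | uGL x ∈ Γ}
  zero_mem' := by simp [uGL_zero, Γ.one_mem]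
  add_mem' := by
    intro x y hx hy
    simp only [Set.mem_ofPred_eq] at *
    rw [← uGL_mul]; exact Γ.mul_mem hx hy
  neg_mem' := by
    intro x hx
    simp only [Set.mem_ofPred_eq] at *
    have : uGL (-x) = (uGL x)⁻¹ := by
      apply Units.ext; rfl
    rw [this]; exact Γ.inv_mem hx

theorem mem_unipAdd {x : k} : x ∈ unipAdd Γ ↔ uGL x ∈ Γ := Iff.rfl

variable {Γ}
variable (c : Γ → Matrix (Fin 2) (Fin 2) k)

/-- the value of the cocycle on `u_x` (junk value `0` when `u_x ∉ Γ`) -/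
noncomputable def cu (x : k) : Matrix (Fin 2) (Fin 2) k := by
  classical
  exact if h : uGL x ∈ Γ then c ⟨uGL x, h⟩ else 0

theorem cu_of_mem {x : k} (h : uGL x ∈ Γ) : cu c x = c ⟨uGL x, h⟩ := by
  classical
  unfold cu; rw [dif_pos h]

variable {c}

theorem cu_add (hc : IsCocycle (tad.comp Γ.subtype) c) {x y : k} (hx : x ∈ unipAdd Γ)
    (hy : y ∈ unipAdd Γ) : cu c (x + y) = cu c x + uMat x * cu c y * uMat (-x) := by
  have hxy : x + y ∈ unipAdd Γ := (unipAdd Γ).add_mem hx hy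
  rw [cu_of_mem c hxy, cu_of_mem c hx, cu_of_mem c hy]
  have : (⟨uGL (x + y), hxy⟩ : Γ) = ⟨uGL x, hx⟩ * ⟨uGL y, hy⟩ := by
    apply Subtype.ext; simp [uGL_mul]
  rw [this, hc]
  congr 1
  simp only [MonoidHom.comp_apply, Subgroup.subtype_apply]
  exact tad_uGL x _

theorem cu_zero (hc : IsCocycle (tad.comp Γ.subtype) c) : cu c 0 = 0 := by
  have h0 : (0 : k) ∈ unipAdd Γ := (unipAdd Γ).zero_mem
  rw [cu_of_mem c h0]
  have : (⟨uGL (0 : k), h0⟩ : Γ) = 1 := Subtype.ext uGL_zero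
  rw [this, hc.map_one]

/-- γ-equation -/
theorem cu_add_10 (hc : IsCocycle (tad.comp Γ.subtype) c) {x y : k} (hx : x ∈ unipAdd Γ)
    (hy : y ∈ unipAdd Γ) : cu c (x + y) 1 0 = cu c x 1 0 + cu c y 1 0 := by
  rw [cu_add hc hx hy, uMat_conj_apply]; simp

/-- β-equation -/
theorem cu_add_00 (hc : IsCocycle (tad.comp Γ.subtype) c) {x y : k} (hx : x ∈ unipAdd Γ)
    (hy : y ∈ unipAdd Γ) : cu c (x + y) 0 0 = cu c x 0 0 + cu c y 0 0 + x * cu c y 1 0 := by
  rw [cu_add hc hx hy, uMat_conj_apply]; simp; ring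

/-- α-equation (for traceless values) -/
theorem cu_add_01 (hc : IsCocycle (tad.comp Γ.subtype) c) (htr : ∀ g, (c g).trace = 0) {x y : k}
    (hx : x ∈ unipAdd Γ) (hy : y ∈ unipAdd Γ) :
    cu c (x + y) 0 1 = cu c x 0 1 + cu c y 0 1 - 2 * x * cu c y 0 0 - x ^ 2 * cu c y 1 0 := by
  have h11 : cu c y 1 1 = - cu c y 0 0 := by
    have := htr ⟨uGL y, hy⟩
    rw [← cu_of_mem c hy, Matrix.trace_fin_two] at this
    linear_combination this
  rw [cu_add hc hx hy, uMat_conj_apply]; simp [h11]; ring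

end NP

end Fermat.Agent.GP.TW.H1Dir
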