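/-
S56 [P-TW] (GT1), helper52: the functional equation (E) from the trace identity on `u_x v_μ`,
and its consequences for the restriction of a cocycle to the upper unipotent subgroup.
Mathlib only.
-/
import Fermat.Agent.GP.TW.H1Dir.Unip

set_option autoImplicit false

namespace Fermat.Agent.GP.TW.H1Dir

open Matrix

variable {k : Type*} [Field k]

theorem trace_E_of (x μ a b c d a' b' c' d' : k) :
    ((!![a, b; c, d] + uMat x * !![a', b'; c', d'] * uMat (-x)) * (uMat x * vMat μ)).trace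
      = (a * (1 + x * μ) + b * μ + c * x + d) + (a' + b' * μ + c' * x + d' * (1 + x * μ)) := by
  rw [uMat_conj_of]
  simp only [uMat, vMat, Matrix.mul_fin_two, Matrix.trace_fin_two]
  simp
  ring

theorem trace_E (x μ : k) (M M' : Matrix (Fin 2) (Fin 2) k) :
    ((M + uMat x * M' * uMat (-x)) * (uMat x * vMat μ)).trace
      = (M 0 0 * (1 + x * μ) + M 0 1 * μ + M 1 0 * x + M 1 1)
        + (M' 0 0 + M' 0 1 * μ + M' 1 0 * x + M' 1 1 * (1 + x * μ)) := by
  conv_lhs => rw [Matrix.eta_fin_two M, Matrix.eta_fin_two M']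
  rw [trace_E_of]

theorem uMat_mul_vMat (x μ : k) : uMat x * vMat μ = !![1 + x * μ, x; μ, 1] := by
  simp only [uMat, vMat, Matrix.mul_fin_two]
  ext i j; fin_cases i <;> fin_cases j <;> simp

section NP

variable {Γ : Subgroup (GL (Fin 2) k)} [Finite Γ]
variable {c : Γ → Matrix (Fin 2) (Fin 2) k}

/-- (E): the functional equation. -/
theorem funEq (p : ℕ) [Fact p.Prime] [CharP k p] (hc : IsCocycle (tad.comp Γ.subtype) c) (htr : ∀ g, (c g).trace = 0)
    {x μ : k} (hx : x ∈ unipAdd Γ) (hv : vGL μ ∈ Γ) (hval : x * μ * (x * μ + 4) ≠ 0) :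
    cu c x 0 0 * x * μ + cu c x 0 1 * μ + cu c x 1 0 * x
      + c ⟨vGL μ, hv⟩ 0 1 * μ + c ⟨vGL μ, hv⟩ 1 0 * x - c ⟨vGL μ, hv⟩ 0 0 * x * μ = 0 := by
  set g : Γ := ⟨uGL x, hx⟩ * ⟨vGL μ, hv⟩ with hg
  have hgval : g.1.1 = uMat x * vMat μ := by
    simp [hg]
  have hdet : g.1.1.det = 1 := by
    rw [hgval, Matrix.det_mul, det_uMat, det_vMat, one_mul]
  have htrace : g.1.1.trace = 2 + x * μ := by
    rw [hgval, uMat_mul_vMat, Matrix.trace_fin_two]; simp; ring
  have htr4 : g.1.1.trace ^ 2 ≠ 4 := by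
    rw [htrace]
    intro h
    apply hval
    linear_combination h
  have hid := trace_cocycle_mul_self_eq_zero p Γ c hc g hdet htr4
  have hcg : c g = cu c x + uMat x * c ⟨vGL μ, hv⟩ * uMat (-x) := by
    rw [hg, hc, cu_of_mem c hx]
    congr 1
    simp only [MonoidHom.comp_apply, Subgroup.subtype_apply]
    exact tad_uGL x _
  rw [hcg, hgval, trace_E] at hid
  have h1 : cu c x 1 1 = - cu c x 0 0 := by
    have := htr ⟨uGL x, hx⟩
    rw [← cu_of_mem c hx, Matrix.trace_fin_two] at this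
    linear_combination this
  have h2 : c ⟨vGL μ, hv⟩ 1 1 = - c ⟨vGL μ, hv⟩ 0 0 := by
    have := htr ⟨vGL μ, hv⟩
    rw [Matrix.trace_fin_two] at this
    linear_combination this
  rw [h1, h2] at hid
  linear_combination hid

omit [Finite Γ] in
/-- `x γ(y) = y γ(x)` -/
theorem gamma_symm (hc : IsCocycle (tad.comp Γ.subtype) c) {x y : k} (hx : x ∈ unipAdd Γ)
    (hy : y ∈ unipAdd Γ) : x * cu c y 1 0 = y * cu c x 1 0 := by
  have h1 := cu_add_00 hc hx hy
  have h2 := cu_add_00 hc hy hx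
  rw [add_comm y x] at h2
  linear_combination h2 - h1

omit [Finite Γ] in
theorem gamma_eq_zero_of (hc : IsCocycle (tad.comp Γ.subtype) c) {z : k} (hz : z ∈ unipAdd Γ)
    (hz0 : z ≠ 0) (hγz : cu c z 1 0 = 0) {x : k} (hx : x ∈ unipAdd Γ) : cu c x 1 0 = 0 := by
  have := gamma_symm hc hz hx
  rw [hγz, mul_zero] at this
  rcases mul_eq_zero.mp this with h | h
  · exact absurd h hz0
  · exact h

omit [Finite Γ] in
/-- for `p = 3` the `γ`-component vanishes. -/
theorem gamma_eq_zero_of_three (p : ℕ) [Fact p.Prime] [CharP k p] (h3 : p = 3) (hc : IsCocycle (tad.comp Γ.subtype) c)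
    (htr : ∀ g, (c g).trace = 0) {x : k} (hx : x ∈ unipAdd Γ) : cu c x 1 0 = 0 := by
  by_cases hx0 : x = 0
  · rw [hx0, cu_zero hc]; rfl
  have h3k : (3 : k) = 0 := by
    have := CharP.cast_eq_zero k p
    rw [h3] at this
    exact_mod_cast this
  have hxx : x + x ∈ unipAdd Γ := (unipAdd Γ).add_mem hx hx
  have e1 := cu_add_01 hc htr hx hx
  have e2 := cu_add_01 hc htr hxx hx
  have hzero : x + x + x = 0 := by linear_combination x * h3k
  rw [hzero, cu_zero hc] at e2
  have e2' : (0 : k) = cu c (x + x) 0 1 + cu c x 0 1 - 2 * (x + x) * cu c x 0 0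
      - (x + x) ^ 2 * cu c x 1 0 := by simpa using e2
  rw [e1] at e2'
  have : x ^ 2 * cu c x 1 0 = 0 := by
    linear_combination -e2' + (-(cu c x 0 1) + 2 * x * cu c x 0 0 + 2 * x ^ 2 * cu c x 1 0) * h3k
  rcases mul_eq_zero.mp this with h | h
  · exact absurd (pow_eq_zero_iff (by norm_num) |>.mp h) hx0
  · exact h

/-- key relation `K(w)`: `a' μ = γ(w) w (w μ + 2)` for `w`, `2w` valid. -/
theorem key_rel (p : ℕ) [Fact p.Prime] [CharP k p] (hc : IsCocycle (tad.comp Γ.subtype) c) (htr : ∀ g, (c g).trace = 0)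
    (h2 : (2 : k) ≠ 0) {w μ : k} (hw : w ∈ unipAdd Γ) (hv : vGL μ ∈ Γ) (hμ : μ ≠ 0) (hw0 : w ≠ 0)
    (h4 : w * μ ≠ -4) (h2' : w * μ ≠ -2) :
    c ⟨vGL μ, hv⟩ 0 1 * μ = cu c w 1 0 * w * (w * μ + 2) := by
  have hww : w + w ∈ unipAdd Γ := (unipAdd Γ).add_mem hw hw
  have hval1 : w * μ * (w * μ + 4) ≠ 0 := by
    refine mul_ne_zero (mul_ne_zero hw0 hμ) ?_
    intro h; exact h4 (by linear_combination h)
  have hval2 : (w + w) * μ * ((w + w) * μ + 4) ≠ 0 := by
    refine mul_ne_zero (mul_ne_zero ?_ hμ) ?_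
    · intro h
      have : 2 * w = 0 := by linear_combination h
      rcases mul_eq_zero.mp this with h' | h'
      · exact h2 h'
      · exact hw0 h'
    · intro h
      have : 2 * (w * μ + 2) = 0 := by linear_combination h
      rcases mul_eq_zero.mp this with h' | h'
      · exact h2 h'
      · exact h2' (by linear_combination h')
  have E1 := funEq p hc htr hw hv hval1
  have E2 := funEq p hc htr hww hv hval2
  rw [cu_add_00 hc hw hw, cu_add_01 hc htr hw hw, cu_add_10 hc hw hw] at E2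
  linear_combination 2 * E1 - E2

/-- (GE) ⟹ `γ ≡ 0`. -/
theorem gamma_eq_zero_of_good (p : ℕ) [Fact p.Prime] [CharP k p] (hc : IsCocycle (tad.comp Γ.subtype) c) (htr : ∀ g, (c g).trace = 0)
    (h2 : (2 : k) ≠ 0) {z μ : k} (hz : z ∈ unipAdd Γ) (hv : vGL μ ∈ Γ) (hμ : μ ≠ 0) (hz0 : z ≠ 0)
    (h1 : z * μ ≠ 2) (h1' : z * μ ≠ -2) (h4 : z * μ ≠ 4) (h4' : z * μ ≠ -4)
    {x : k} (hx : x ∈ unipAdd Γ) : cu c x 1 0 = 0 := by
  have hnz : -z ∈ unipAdd Γ := (unipAdd Γ).neg_mem hz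
  have K1 := key_rel p hc htr h2 hz hv hμ hz0 h4' h1'
  have K2 := key_rel p hc htr h2 hnz hv hμ (neg_ne_zero.mpr hz0)
    (by intro h; exact h4 (by linear_combination -h)) (by intro h; exact h1 (by linear_combination -h))
  have hneg : cu c (-z) 1 0 = - cu c z 1 0 := by
    have := cu_add_10 hc hz hnz
    rw [add_neg_cancel, cu_zero hc] at this
    have h0 : (0 : Matrix (Fin 2) (Fin 2) k) 1 0 = 0 := rfl
    rw [h0] at this
    linear_combination -this
  rw [hneg] at K2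
  have : cu c z 1 0 * (2 * z ^ 2 * μ) = 0 := by linear_combination K2 - K1
  have hγz : cu c z 1 0 = 0 := by
    rcases mul_eq_zero.mp this with h | h
    · exact h
    · exfalso
      exact (mul_ne_zero (mul_ne_zero h2 (pow_ne_zero 2 hz0)) hμ) h
  exact gamma_eq_zero_of hc hz hz0 hγz hx

end NP

end Fermat.Agent.GP.TW.H1Dir
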