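/-
S56 [P-TW] (GT1), helper52: once the `γ`-component vanishes, the restriction of a cocycle to the
upper unipotent subgroup is a coboundary; normal-position main theorem.  Mathlib only.
-/
import Fermat.Agent.GP.TW.H1Dir.FunEqK

set_option autoImplicit false

namespace Fermat.Agent.GP.TW.H1Dir

open Matrix

variable {k : Type*} [Field k]
variable {Γ : Subgroup (GL (Fin 2) k)}
variable {c : Γ → Matrix (Fin 2) (Fin 2) k}

section beta

/-- with `γ = 0`, `β` is additive -/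
theorem beta_add (hc : IsCocycle (tad.comp Γ.subtype) c)
    (hγ : ∀ x ∈ unipAdd Γ, cu c x 1 0 = 0) {x y : k} (hx : x ∈ unipAdd Γ) (hy : y ∈ unipAdd Γ) :
    cu c (x + y) 0 0 = cu c x 0 0 + cu c y 0 0 := by
  rw [cu_add_00 hc hx hy, hγ y hy, mul_zero, add_zero]

/-- with `γ = 0`, `x β(y) = y β(x)` -/
theorem beta_symm (hc : IsCocycle (tad.comp Γ.subtype) c) (htr : ∀ g, (c g).trace = 0)
    (h2 : (2 : k) ≠ 0) (hγ : ∀ x ∈ unipAdd Γ, cu c x 1 0 = 0) {x y : k} (hx : x ∈ unipAdd Γ)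
    (hy : y ∈ unipAdd Γ) : x * cu c y 0 0 = y * cu c x 0 0 := by
  have h1 := cu_add_01 hc htr hx hy
  have h2' := cu_add_01 hc htr hy hx
  rw [add_comm y x] at h2'
  rw [hγ y hy] at h1
  rw [hγ x hx] at h2'
  have : 2 * (x * cu c y 0 0 - y * cu c x 0 0) = 0 := by linear_combination h1 - h2'
  rcases mul_eq_zero.mp this with h | h
  · exact absurd h h2
  · exact sub_eq_zero.mp h

/-- with `γ = 0`, `β(x) = b₀ x` -/
theorem beta_eq (hc : IsCocycle (tad.comp Γ.subtype) c) (htr : ∀ g, (c g).trace = 0)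
    (h2 : (2 : k) ≠ 0) (hγ : ∀ x ∈ unipAdd Γ, cu c x 1 0 = 0) {x₀ : k} (hx₀ : x₀ ∈ unipAdd Γ)
    (hx₀0 : x₀ ≠ 0) {x : k} (hx : x ∈ unipAdd Γ) :
    cu c x 0 0 = (cu c x₀ 0 0 / x₀) * x := by
  have := beta_symm hc htr h2 hγ hx₀ hx
  field_simp
  linear_combination this

/-- with `γ = 0`, `α₀(x) = α(x) + b₀ x²` is additive -/
theorem alpha0_add (hc : IsCocycle (tad.comp Γ.subtype) c) (htr : ∀ g, (c g).trace = 0)
    (h2 : (2 : k) ≠ 0) (hγ : ∀ x ∈ unipAdd Γ, cu c x 1 0 = 0) {x₀ : k} (hx₀ : x₀ ∈ unipAdd Γ)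
    (hx₀0 : x₀ ≠ 0) {x y : k} (hx : x ∈ unipAdd Γ) (hy : y ∈ unipAdd Γ) :
    cu c (x + y) 0 1 + (cu c x₀ 0 0 / x₀) * (x + y) ^ 2
      = (cu c x 0 1 + (cu c x₀ 0 0 / x₀) * x ^ 2) + (cu c y 0 1 + (cu c x₀ 0 0 / x₀) * y ^ 2) := by
  rw [cu_add_01 hc htr hx hy, hγ y hy, beta_eq hc htr h2 hγ hx₀ hx₀0 hy]
  ring

end beta

section kappa

variable [Finite Γ]

/-- Existence of `κ` with `α₀ = κ · incl` on `A`. -/
theorem exists_kappa (p : ℕ) [Fact p.Prime] [CharP k p]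
    (hc : IsCocycle (tad.comp Γ.subtype) c) (htr : ∀ g, (c g).trace = 0)
    (h2 : (2 : k) ≠ 0) (hγ : ∀ x ∈ unipAdd Γ, cu c x 1 0 = 0) {x₀ μ : k} (hx₀ : x₀ ∈ unipAdd Γ)
    (hx₀0 : x₀ ≠ 0) (hv : vGL μ ∈ Γ) (hμ : μ ≠ 0) :
    ∃ κ : k, ∀ x ∈ unipAdd Γ, cu c x 0 1 + (cu c x₀ 0 0 / x₀) * x ^ 2 = κ * x := by
  set b₀ := cu c x₀ 0 0 / x₀ with hb₀
  -- abbreviations
  have hadd : ∀ x ∈ unipAdd Γ, ∀ y ∈ unipAdd Γ,
      cu c (x + y) 0 1 + b₀ * (x + y) ^ 2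
        = (cu c x 0 1 + b₀ * x ^ 2) + (cu c y 0 1 + b₀ * y ^ 2) :=
    fun x hx y hy => alpha0_add hc htr h2 hγ hx₀ hx₀0 hx hy
  have hzero : cu c 0 0 1 + b₀ * (0 : k) ^ 2 = 0 := by
    rw [cu_zero hc]; simp
  by_cases hC1 : ∃ w ∈ unipAdd Γ, w ≠ 0 ∧ w * μ ≠ -4 ∧ w * μ ≠ -2
  · -- case (C1)
    obtain ⟨w, hw, hw0, hw4, hw2⟩ := hC1
    have ha' : c ⟨vGL μ, hv⟩ 0 1 = 0 := by
      have K := key_rel p hc htr h2 hw hv hμ hw0 hw4 hw2
      rw [hγ w hw, zero_mul, zero_mul] at K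
      rcases mul_eq_zero.mp K with h | h
      · exact h
      · exact absurd h hμ
    set κ := c ⟨vGL μ, hv⟩ 0 0 - c ⟨vGL μ, hv⟩ 1 0 / μ with hκ
    -- valid x
    have hvalid : ∀ x ∈ unipAdd Γ, x ≠ 0 → x * μ ≠ -4 →
        cu c x 0 1 + b₀ * x ^ 2 = κ * x := by
      intro x hx hx0 hx4
      have hval : x * μ * (x * μ + 4) ≠ 0 := by
        refine mul_ne_zero (mul_ne_zero hx0 hμ) ?_
        intro h; exact hx4 (by linear_combination h)
      have E := funEq p hc htr hx hv hval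
      rw [hγ x hx, ha', beta_eq hc htr h2 hγ hx₀ hx₀0 hx] at E
      rw [hκ]
      field_simp
      linear_combination E
    refine ⟨κ, fun x hx => ?_⟩
    by_cases hx0 : x = 0
    · rw [hx0, hzero, mul_zero]
    by_cases hx4 : x * μ = -4
    · -- invalid point: x = (x - w) + w
      have hxw : x - w ∈ unipAdd Γ := (unipAdd Γ).sub_mem hx hw
      have h1 := hvalid w hw hw0 hw4
      have h2' := hvalid (x - w) hxw
        (by intro h; apply hw4; rw [← hx4]; rw [sub_eq_zero.mp h])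
        (by
          intro h
          apply hw0
          have : w * μ = 0 := by linear_combination hx4 - h
          rcases mul_eq_zero.mp this with h' | h'
          · exact h'
          · exact absurd h' hμ)
      have := hadd (x - w) hxw w hw
      rw [sub_add_cancel] at this
      rw [this, h1, h2']; ring
    · exact hvalid x hx hx0 hx4
  · -- case (C2)
    push Not at hC1
    set κ := (cu c x₀ 0 1 + b₀ * x₀ ^ 2) / x₀ with hκ
    have hκ' : cu c x₀ 0 1 + b₀ * x₀ ^ 2 = κ * x₀ := by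
      rw [hκ]; field_simp
    refine ⟨κ, fun x hx => ?_⟩
    by_cases hx0 : x = 0
    · rw [hx0, hzero, mul_zero]
    have hx' : x * μ = -4 ∨ x * μ = -2 := by
      by_cases h : x * μ = -4
      · exact Or.inl h
      · exact Or.inr (hC1 x hx hx0 h)
    have hx₀' : x₀ * μ = -4 ∨ x₀ * μ = -2 := by
      by_cases h : x₀ * μ = -4
      · exact Or.inl h
      · exact Or.inr (hC1 x₀ hx₀ hx₀0 h)
    have hcancel : ∀ a b : k, a * μ = b * μ → a = b := fun a b h =>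
      mul_right_cancel₀ hμ h
    rcases hx' with h | h <;> rcases hx₀' with h' | h'
    · have : x = x₀ := hcancel _ _ (by rw [h, h'])
      rw [this]; exact hκ'
    · have : x = x₀ + x₀ := hcancel _ _ (by rw [h, add_mul, h']; ring)
      rw [this, hadd x₀ hx₀ x₀ hx₀, hκ']; ring
    · have hxx : x₀ = x + x := hcancel _ _ (by rw [h', add_mul, h]; ring)
      have h3 := hadd x hx x hx
      rw [← hxx, hκ'] at h3
      have : 2 * (cu c x 0 1 + b₀ * x ^ 2) = 2 * (κ * x) := by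
        linear_combination -h3 + κ * hxx
      exact mul_left_cancel₀ h2 this
    · have : x = x₀ := hcancel _ _ (by rw [h, h'])
      rw [this]; exact hκ'

/-- With `γ = 0` the restriction to the `u_x` is the coboundary of an explicit traceless matrix. -/
theorem exists_cob_on_unip (p : ℕ) [Fact p.Prime] [CharP k p]
    (hc : IsCocycle (tad.comp Γ.subtype) c) (htr : ∀ g, (c g).trace = 0)
    (h2 : (2 : k) ≠ 0) (hγ : ∀ x ∈ unipAdd Γ, cu c x 1 0 = 0) {x₀ μ : k} (hx₀ : x₀ ∈ unipAdd Γ)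
    (hx₀0 : x₀ ≠ 0) (hv : vGL μ ∈ Γ) (hμ : μ ≠ 0) :
    ∃ m : Matrix (Fin 2) (Fin 2) k, m.trace = 0 ∧
      ∀ x ∈ unipAdd Γ, cu c x = uMat x * m * uMat (-x) - m := by
  obtain ⟨κ, hκ⟩ := exists_kappa p hc htr h2 hγ hx₀ hx₀0 hv hμ
  refine ⟨!![-κ / 2, 0; cu c x₀ 0 0 / x₀, κ / 2], ?_, fun x hx => ?_⟩
  · rw [Matrix.trace_fin_two]
    show -κ / 2 + κ / 2 = 0
    ring
  have h11 : cu c x 1 1 = - cu c x 0 0 := by
    have := htr ⟨uGL x, hx⟩
    rw [← cu_of_mem c hx, Matrix.trace_fin_two] at this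
    linear_combination this
  have hβ := beta_eq hc htr h2 hγ hx₀ hx₀0 hx
  have hα := hκ x hx
  rw [uMat_conj_of]
  ext i j
  fin_cases i <;> fin_cases j
  · show cu c x 0 0 = (-κ / 2 + x * (cu c x₀ 0 0 / x₀)) - (-κ / 2)
    rw [hβ]; ring
  · show cu c x 0 1 = (0 + x * (κ / 2) - x * (-κ / 2) - x ^ 2 * (cu c x₀ 0 0 / x₀)) - 0
    linear_combination hα - κ * x * (inv_mul_cancel₀ h2)
  · show cu c x 1 0 = cu c x₀ 0 0 / x₀ - cu c x₀ 0 0 / x₀
    rw [hγ x hx]; ring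
  · show cu c x 1 1 = (κ / 2 - x * (cu c x₀ 0 0 / x₀)) - κ / 2
    rw [h11, hβ]; ring

end kappa

end Fermat.Agent.GP.TW.H1Dir
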