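/-
S56 [P-TW] (GT1), helper52: normal-position main theorem: if the `γ`-component of a traceless
twisted cocycle vanishes on the upper unipotent subgroup, whose index in `Γ` is invertible in `k`,
and some `v_μ ∈ Γ` (`μ ≠ 0`), then the cocycle is the coboundary of a traceless matrix.
Mathlib only.
-/
import Fermat.Agent.GP.TW.H1Dir.PCob

set_option autoImplicit false

namespace Fermat.Agent.GP.TW.H1Dir

open Matrix

variable {k : Type*} [Field k]

theorem trace_tad (g : GL (Fin 2) k) (m : Matrix (Fin 2) (Fin 2) k) :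
    (tad g m).trace = ((Matrix.GeneralLinearGroup.det g : kˣ) : k) * m.trace := by
  rw [tad_apply, Matrix.trace_smul, smul_eq_mul]
  congr 1
  rw [Matrix.trace_mul_comm, ← Matrix.mul_assoc]
  have : (g⁻¹).1 * g.1 = 1 := by
    have := congrArg Units.val (inv_mul_cancel g)
    simpa using this
  rw [this, Matrix.one_mul]

theorem tad_smul_one (g : GL (Fin 2) k) (a : k) :
    tad g (a • (1 : Matrix (Fin 2) (Fin 2) k))
      = (((Matrix.GeneralLinearGroup.det g : kˣ) : k) * a) • (1 : Matrix (Fin 2) (Fin 2) k) := by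
  rw [tad_apply, Matrix.mul_smul, Matrix.mul_one, Matrix.smul_mul]
  have : g.1 * (g⁻¹).1 = 1 := by
    have := congrArg Units.val (mul_inv_cancel g)
    simpa using this
  rw [this, smul_smul]

/-- Replacing a primitive by its traceless part. -/
theorem exists_traceless_primitive (h2 : (2 : k) ≠ 0) {Γ : Subgroup (GL (Fin 2) k)}
    {c : Γ → Matrix (Fin 2) (Fin 2) k} (htr : ∀ g, (c g).trace = 0)
    {M : Matrix (Fin 2) (Fin 2) k} (hM : ∀ g : Γ, c g = tad g.1 M - M) :
    ∃ m : Matrix (Fin 2) (Fin 2) k, m.trace = 0 ∧ ∀ g : Γ, c g = tad g.1 m - m := by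
  refine ⟨M - (M.trace / 2) • (1 : Matrix (Fin 2) (Fin 2) k), ?_, fun g => ?_⟩
  · rw [Matrix.trace_sub, Matrix.trace_smul, Matrix.trace_one, Fintype.card_fin, smul_eq_mul]
    push_cast
    field_simp
    ring
  · have h0 := htr g
    rw [hM g, Matrix.trace_sub, trace_tad] at h0
    rw [map_sub, tad_smul_one, hM g]
    have : (((Matrix.GeneralLinearGroup.det g.1 : kˣ) : k) * (M.trace / 2))
        = M.trace / 2 := by
      field_simp
      linear_combination h0
    rw [this]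
    abel

section NP

variable {Γ : Subgroup (GL (Fin 2) k)}

/-- the subgroup of `Γ` of upper unipotent elements -/
def unipSub (Γ : Subgroup (GL (Fin 2) k)) : Subgroup Γ where
  carrier := {g | ∃ x : k, g.1 = uGL x}
  one_mem' := ⟨0, by simp [uGL_zero]⟩
  mul_mem' := by
    rintro a b ⟨x, hx⟩ ⟨y, hy⟩
    exact ⟨x + y, by rw [Subgroup.coe_mul, hx, hy, uGL_mul]⟩
  inv_mem' := by
    rintro a ⟨x, hx⟩
    refine ⟨-x, ?_⟩
    rw [Subgroup.coe_inv, hx]
    apply Units.ext; rfl

theorem coboundary_of_normalPosition (p : ℕ) [Fact p.Prime] [CharP k p] [Finite Γ]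
    (h2 : (2 : k) ≠ 0) {c : Γ → Matrix (Fin 2) (Fin 2) k}
    (hc : IsCocycle (tad.comp Γ.subtype) c) (htr : ∀ g, (c g).trace = 0)
    (hγ : ∀ x ∈ unipAdd Γ, cu c x 1 0 = 0) {x₀ μ : k} (hx₀ : x₀ ∈ unipAdd Γ)
    (hx₀0 : x₀ ≠ 0) (hv : vGL μ ∈ Γ) (hμ : μ ≠ 0)
    (hidx : (((unipSub Γ).index : ℕ) : k) ≠ 0) :
    ∃ m : Matrix (Fin 2) (Fin 2) k, m.trace = 0 ∧ ∀ g : Γ, c g = tad g.1 m - m := by
  obtain ⟨m₁, -, hm₁⟩ := exists_cob_on_unip p hc htr h2 hγ hx₀ hx₀0 hv hμ
  set act := (tad (k := k)).comp Γ.subtype with hact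
  set c' : Γ → Matrix (Fin 2) (Fin 2) k := fun g => c g - (act g m₁ - m₁) with hc'
  have hcoc : IsCocycle act c' := by
    intro g h
    simp only [hc']
    rw [hc g h, map_mul, Module.End.mul_apply, map_sub, map_sub]
    abel
  have hres : ∀ g ∈ unipSub Γ, c' g = 0 := by
    rintro g ⟨x, hx⟩
    have hxA : x ∈ unipAdd Γ := by
      rw [mem_unipAdd, ← hx]; exact g.2
    have hg : g = ⟨uGL x, hxA⟩ := Subtype.ext hx
    simp only [hc']
    rw [hg, ← cu_of_mem c hxA, hm₁ x hxA]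
    have : act ⟨uGL x, hxA⟩ m₁ = uMat x * m₁ * uMat (-x) := by
      simp only [hact, MonoidHom.comp_apply, Subgroup.subtype_apply]
      exact tad_uGL x _
    rw [this, sub_self]
  obtain ⟨m₂, hm₂⟩ := coboundary_of_res_eq_zero act c' hcoc (unipSub Γ) hres hidx
  have hM : ∀ g : Γ, c g = tad g.1 (m₁ + m₂) - (m₁ + m₂) := by
    intro g
    have h := hm₂ g
    simp only [hc'] at h
    have hact' : act g = tad g.1 := rfl
    rw [hact'] at h
    rw [map_add]
    have : c g = (tad g.1 m₂ - m₂) + (tad g.1 m₁ - m₁) := by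
      rw [← h]; abel
    rw [this]; abel
  exact exists_traceless_primitive h2 htr hM

end NP

end Fermat.Agent.GP.TW.H1Dir
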