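/-
  GP/TW/H1Dir/Bad5.lean  (helper38)  —  leaf (B5) of board 4012.

  The exceptional case `p = 5` of the direct proof of `H^1(Γ, ad⁰(det)) = 0`, on the conventions
  of `Basic / TraceId / Unip / FunEqK` (helper52):  `Γ ≤ GL₂(k)` finite, `char k = 5`,
  `c : Γ → M₂(k)` a cocycle for the twisted adjoint action `tad`, `A = unipAdd Γ`.

  * `bad5_tad_entry`  : for upper triangular `t = [[a, b], [0, d]]`,
        `(tad t m) 1 0 = d ^ 2 * m 1 0`.
  * `bad5_torus`      : `t u_x = u_y t` in `Γ`  ⟹  `γ(y) = d² γ(x)`   (`γ(x) = cu c x 1 0`).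
  * `bad5_gamma_eq_zero` : cyclic case `A ⊆ 𝔽₅ z0`, the upper unipotent subgroup `P` of `Γ` of index
        prime to `5`, some element of `Γ` with `det² ≠ 1`  ⟹  `γ = 0` on `A`
        (Frattini with `ker det`, `Frattini5.c0_eq_zero_of_five`).
  * `bad5_cyclic_of_not_good` : if no `z ∈ A` is "good" for `μ` (`z μ ∉ {0, ±2, ±4}`), then `A` is
        cyclic.
  * `gamma_eq_zero_of_bad5` : the same in the exact binder shape of board 4069 (with `unipSub Γ`).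
  * `gamma_five_eq_zero` : `p = 5`, ALL cases: `γ = 0` on `A` (good `z`: `gamma_eq_zero_of_good`;
        otherwise `bad5_gamma_eq_zero`).
-/
import Fermat.Agent.GP.TW.H1Dir.NPMain
import Fermat.Agent.GP.TW.H1Dir.Frattini5

set_option autoImplicit false

namespace Fermat.Agent.GP.TW.H1Dir

open Matrix

variable {k : Type*} [Field k]

/-- The `(1,0)` entry of the twisted adjoint action of an upper triangular matrix. -/
theorem bad5_tad_entry (t : GL (Fin 2) k) {a b d : k} (ht : t.1 = !![a, b; 0, d])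
    (m : Matrix (Fin 2) (Fin 2) k) : (tad t m) 1 0 = d ^ 2 * m 1 0 := by
  set N : Matrix (Fin 2) (Fin 2) k := t.1 * m * (t⁻¹).1 with hN
  have hNt : N * t.1 = t.1 * m := by
    rw [hN, Matrix.mul_assoc]
    have : (t⁻¹).1 * t.1 = 1 := by
      exact t.inv_mul
    rw [this, Matrix.mul_one]
  have h10 := congrFun (congrFun hNt 1) 0
  rw [ht] at h10
  simp [Matrix.mul_apply, Fin.sum_univ_two] at h10
  have hdet : ((Matrix.GeneralLinearGroup.det t : kˣ) : k) = a * d := by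
    rw [Matrix.GeneralLinearGroup.val_det_apply, ht, Matrix.det_fin_two]; simp
  rw [tad_apply, hdet]
  have : (((a * d) • N) 1 0) = (a * d) * N 1 0 := by simp
  rw [← hN, this]
  linear_combination d * h10

theorem bad5_uGL_pow (x : k) (n : ℕ) : (uGL x) ^ n = uGL ((n : k) * x) := by
  induction n with
  | zero => simp [uGL_zero]
  | succ n ih =>
    rw [pow_succ, ih, uGL_mul]
    congr 1; push_cast; ring

section NP

variable {Γ : Subgroup (GL (Fin 2) k)} {c : Γ → Matrix (Fin 2) (Fin 2) k}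

/-- **Torus identity**: if `t ∈ Γ` is upper triangular with diagonal `(a, d)` and
`t u_x = u_y t`, then `γ(y) = d² γ(x)`. -/
theorem bad5_torus (hc : IsCocycle (tad.comp Γ.subtype) c) {t : Γ} {a b d : k}
    (ht : t.1.1 = !![a, b; 0, d]) {x y : k} (hx : x ∈ unipAdd Γ) (hy : y ∈ unipAdd Γ)
    (hconj : t * ⟨uGL x, hx⟩ = ⟨uGL y, hy⟩ * t) :
    cu c y 1 0 = d ^ 2 * cu c x 1 0 := by
  have h1 := hc t ⟨uGL x, hx⟩
  have h2 := hc ⟨uGL y, hy⟩ t
  rw [hconj, h2] at h1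
  have e1 : (tad.comp Γ.subtype) ⟨uGL y, hy⟩ (c t) = uMat y * c t * uMat (-y) := by
    simp only [MonoidHom.comp_apply, Subgroup.subtype_apply]
    exact tad_uGL y _
  have e2 : (tad.comp Γ.subtype) t (c ⟨uGL x, hx⟩) = tad t.1 (cu c x) := by
    simp only [MonoidHom.comp_apply, Subgroup.subtype_apply]
    rw [cu_of_mem c hx]
  rw [e1, e2, ← cu_of_mem c hy] at h1
  have h10 := congrFun (congrFun h1 1) 0
  rw [Matrix.add_apply, Matrix.add_apply, uMat_conj_apply, bad5_tad_entry t.1 ht] at h10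
  simp at h10
  linear_combination h10

variable [Finite Γ]

/-- **The cyclic case** (`p = 5`).  `P` = the subgroup of upper unipotent elements of `Γ`, of index
prime to `5`; `A = unipAdd Γ ⊆ 𝔽₅ z0`; some element of `Γ` has `det² ≠ 1`.  Then the
`γ`-component of the cocycle vanishes on `A`. -/
theorem bad5_gamma_eq_zero [CharP k 5] (hc : IsCocycle (tad.comp Γ.subtype) c)
    (P : Subgroup Γ) (hP : ∀ g : Γ, g ∈ P ↔ ∃ x : k, g.1 = uGL x) (hidx : ¬ 5 ∣ P.index)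
    {z0 : k} (hz0 : z0 ∈ unipAdd Γ) (hz00 : z0 ≠ 0)
    (hcyc : ∀ x ∈ unipAdd Γ, ∃ n : ℕ, x = (n : k) * z0)
    (hdet : ∃ g : Γ, (g.1.1.det) ^ 2 ≠ 1)
    {x : k} (hx : x ∈ unipAdd Γ) : cu c x 1 0 = 0 := by
  have hfact : Fact (Nat.Prime 5) := ⟨by norm_num⟩
  have h5 : ((5 : ℕ) : k) = 0 := CharP.cast_eq_zero k 5
  -- `P` is a `5`-group
  have hPp : IsPGroup 5 P := by
    intro g
    obtain ⟨y, hy⟩ := (hP g.1).1 g.2
    refine ⟨1, ?_⟩
    apply Subtype.ext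
    apply Subtype.ext
    rw [pow_one]
    show (g.1.1) ^ 5 = 1
    rw [hy, bad5_uGL_pow, h5, zero_mul, uGL_zero]
  obtain ⟨S, hS⟩ : ∃ S : Sylow 5 Γ, ∀ g : Γ, g ∈ (S : Subgroup Γ) ↔ g ∈ P :=
    ⟨hPp.toSylow hidx, fun g => Iff.rfl⟩
  suffices hγ : cu c z0 1 0 = 0 from gamma_eq_zero_of hc hz0 hz00 hγ hx
  refine c0_eq_zero_of_five (G := Γ) Γ.subtype S (unipAdd Γ) ?_ hz00 hcyc
    (g0 := ⟨uGL z0, hz0⟩) ?_ ?_ (cu c z0 1 0) ?_ ?_
  · -- image of `P`
    intro g hg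
    obtain ⟨y, hy⟩ := (hP g).1 ((hS g).1 hg)
    refine ⟨y, ?_, ?_⟩
    · have hmem : g.1 ∈ Γ := g.2
      rw [hy] at hmem
      exact hmem
    · show g.1.1 = _
      rw [hy]; rfl
  · exact (hS _).2 ((hP _).2 ⟨z0, rfl⟩)
  · rfl
  · -- the torus identity
    intro t ht a b d htm
    have hconjP : t * ⟨uGL z0, hz0⟩ * t⁻¹ ∈ P :=
      (hS _).1 ((Subgroup.mem_normalizer_iff.1 ht _).1 ((hS _).2 ((hP _).2 ⟨z0, rfl⟩)))
    obtain ⟨y, hy⟩ := (hP _).1 hconjP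
    have hyA : y ∈ unipAdd Γ := by
      have hmem : (t * ⟨uGL z0, hz0⟩ * t⁻¹ : Γ).1 ∈ Γ := SetLike.coe_mem _
      rw [hy] at hmem
      exact hmem
    have hconj : t * ⟨uGL z0, hz0⟩ = ⟨uGL y, hyA⟩ * t := by
      have : (⟨uGL y, hyA⟩ : Γ) = t * ⟨uGL z0, hz0⟩ * t⁻¹ := Subtype.ext hy.symm
      rw [this]; group
    have htm' : t.1.1 = !![a, b; 0, d] := htm
    have htor := bad5_torus hc htm' hz0 hyA hconj
    have hsym := gamma_symm hc hz0 hyA
    -- matrix identity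
    have hmat : t.1.1 * !![1, z0; 0, 1] = !![1, y; 0, 1] * t.1.1 := by
      have := congrArg (fun g : Γ => g.1.1) hconj
      simpa [uMat] using this
    obtain ⟨-, h00⟩ := upper_of_conj_unipotent _ hz00 hmat
    rw [htm'] at h00
    simp at h00
    -- `a z0 = y d`, `γ(y) = d² γ(z0)`, `z0 γ(y) = y γ(z0)`
    have : z0 * (cu c z0 1 0 * (a - d ^ 3)) = 0 := by
      linear_combination (-d) * hsym + (z0 * d) * htor + cu c z0 1 0 * h00
    rcases mul_eq_zero.1 this with h | h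
    · exact absurd h hz00
    · exact h
  · obtain ⟨g, hg⟩ := hdet
    exact ⟨g, hg⟩

omit [Finite Γ] in
/-- If every non-zero `z ∈ A` has `z μ ∈ {2, -2, 4, -4}` (no "good" `z`), then `A` is contained in
the `𝔽₅`-line through any of its non-zero elements. -/
theorem bad5_cyclic_of_not_good [CharP k 5] {μ : k} (hμ : μ ≠ 0)
    (hbad : ∀ z ∈ unipAdd Γ, z ≠ 0 → z * μ = 2 ∨ z * μ = -2 ∨ z * μ = 4 ∨ z * μ = -4)
    {z0 : k} (hz0 : z0 ∈ unipAdd Γ) (hz00 : z0 ≠ 0) :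
    ∀ x ∈ unipAdd Γ, ∃ n : ℕ, x = (n : k) * z0 := by
  have hfact : Fact (Nat.Prime 5) := ⟨by norm_num⟩
  have h5 : (5 : k) = 0 := by
    have := CharP.cast_eq_zero k 5
    exact_mod_cast this
  have hpow : ∀ z ∈ unipAdd Γ, (z * μ) ^ 5 = z * μ := by
    intro z hz
    by_cases hz0' : z = 0
    · subst hz0'; simp
    · rcases hbad z hz hz0' with h | h | h | h
      · rw [h]; have := natCast_pow_char (k := k) 5 2; exact_mod_cast this
      · rw [h]
        have e : (-2 : k) = ((3 : ℕ) : k) := by push_cast; linear_combination -h5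
        rw [e]; exact natCast_pow_char 5 3
      · rw [h]; have := natCast_pow_char (k := k) 5 4; exact_mod_cast this
      · rw [h]
        have e : (-4 : k) = ((1 : ℕ) : k) := by push_cast; linear_combination -h5
        rw [e]; exact natCast_pow_char 5 1
  intro x hx
  have e1 := hpow x hx
  have e0 := hpow z0 hz0
  have hq : (x / z0) ^ 5 = x / z0 := by
    have : x / z0 = (x * μ) / (z0 * μ) := by field_simp
    rw [this, div_pow, e1, e0]
  obtain ⟨n, hn⟩ := exists_natCast_of_pow_eq 5 hq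
  exact ⟨n, by rw [← hn]; field_simp⟩

/-- **`p = 5`, all cases**: the `γ`-component of the cocycle vanishes on `A = unipAdd Γ`, provided
`Γ` contains some `v_μ`, `μ ≠ 0`, the upper unipotent subgroup `P` of `Γ` has index prime to `5`,
and some element of `Γ` has `det² ≠ 1`. -/
theorem gamma_five_eq_zero [CharP k 5] (hc : IsCocycle (tad.comp Γ.subtype) c)
    (htr : ∀ g, (c g).trace = 0)
    (P : Subgroup Γ) (hP : ∀ g : Γ, g ∈ P ↔ ∃ x : k, g.1 = uGL x) (hidx : ¬ 5 ∣ P.index)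
    {μ : k} (hv : vGL μ ∈ Γ) (hμ : μ ≠ 0)
    (hdet : ∃ g : Γ, (g.1.1.det) ^ 2 ≠ 1)
    {x : k} (hx : x ∈ unipAdd Γ) : cu c x 1 0 = 0 := by
  have hfact : Fact (Nat.Prime 5) := ⟨by norm_num⟩
  have h2 : (2 : k) ≠ 0 := by
    intro h
    have h' : ((2 : ℕ) : k) = 0 := by exact_mod_cast h
    have := (CharP.cast_eq_zero_iff k 5 2).1 h'
    omega
  by_cases hgood : ∃ z ∈ unipAdd Γ, z ≠ 0 ∧ z * μ ≠ 2 ∧ z * μ ≠ -2 ∧ z * μ ≠ 4 ∧ z * μ ≠ -4
  · obtain ⟨z, hz, hz0, h1, h1', h4, h4'⟩ := hgood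
    exact gamma_eq_zero_of_good 5 hc htr h2 hz hv hμ hz0 h1 h1' h4 h4' hx
  · have hbad : ∀ z ∈ unipAdd Γ, z ≠ 0 →
        z * μ = 2 ∨ z * μ = -2 ∨ z * μ = 4 ∨ z * μ = -4 := by
      intro z hz hz0
      by_contra hcon
      push Not at hcon
      exact hgood ⟨z, hz, hz0, hcon.1, hcon.2.1, hcon.2.2.1, hcon.2.2.2⟩
    by_cases hx0 : x = 0
    · rw [hx0, cu_zero hc]; rfl
    · exact bad5_gamma_eq_zero hc P hP hidx hx hx0
        (bad5_cyclic_of_not_good hμ hbad hx hx0) hdet hx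

/-- **(B5) in the binder shape of board 4069** (`unipSub Γ` from `NPMain`): `p = 5`, no good `z`
for `μ`, some element of `Γ` with `det² ≠ 1` ⟹ `γ = 0` on `A`. -/
theorem gamma_eq_zero_of_bad5 [CharP k 5] (hc : IsCocycle (tad.comp Γ.subtype) c)
    (_htr : ∀ g, (c g).trace = 0) (hidx : ¬ 5 ∣ (unipSub Γ).index) {x0 μ : k}
    (hx0 : x0 ∈ unipAdd Γ) (hx00 : x0 ≠ 0) (_hv : vGL μ ∈ Γ) (hμ : μ ≠ 0)
    (hbad : ∀ z ∈ unipAdd Γ, z ≠ 0 → z * μ = 2 ∨ z * μ = -2 ∨ z * μ = 4 ∨ z * μ = -4)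
    (hdet : ∃ g ∈ Γ, ((Matrix.GeneralLinearGroup.det g : kˣ) : k) ^ 2 ≠ 1) :
    ∀ x ∈ unipAdd Γ, cu c x 1 0 = 0 := by
  intro x hx
  refine bad5_gamma_eq_zero hc (unipSub Γ) (fun g => Iff.rfl) hidx hx0 hx00
    (bad5_cyclic_of_not_good hμ hbad hx0 hx00) ?_ hx
  obtain ⟨g, hg, hne⟩ := hdet
  refine ⟨⟨g, hg⟩, ?_⟩
  rw [Matrix.GeneralLinearGroup.val_det_apply] at hne
  exact hne

/-- Variant of `gamma_eq_zero_of_bad5` with the determinant hypothesis on the matrix. -/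
theorem gamma_eq_zero_of_bad5' [CharP k 5] (hc : IsCocycle (tad.comp Γ.subtype) c)
    (hidx : ¬ 5 ∣ (unipSub Γ).index) {x0 μ : k}
    (hx0 : x0 ∈ unipAdd Γ) (hx00 : x0 ≠ 0) (hμ : μ ≠ 0)
    (hbad : ∀ z ∈ unipAdd Γ, z ≠ 0 → z * μ = 2 ∨ z * μ = -2 ∨ z * μ = 4 ∨ z * μ = -4)
    (hdet : ∃ g ∈ Γ, (g.1.det) ^ 2 ≠ 1) :
    ∀ x ∈ unipAdd Γ, cu c x 1 0 = 0 := by
  intro x hx
  refine bad5_gamma_eq_zero hc (unipSub Γ) (fun g => Iff.rfl) hidx hx0 hx00
    (bad5_cyclic_of_not_good hμ hbad hx0 hx00) ?_ hx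
  obtain ⟨g, hg, hne⟩ := hdet
  exact ⟨⟨g, hg⟩, hne⟩

end NP

end Fermat.Agent.GP.TW.H1Dir
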