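/-
S56 [P-TW] (GT1), helper52: normal-position theorem for ALL odd `p`, with the exceptional case
`p = 5`, `A = 𝔽₅ x₀`, `x₀ μ ∈ 𝔽₅` as a binder `Bad5Stmt` (discharged in Bad5.lean by helper38).
Mathlib only.
-/
import Fermat.Agent.GP.TW.H1Dir.NPMain

set_option autoImplicit false

namespace Fermat.Agent.GP.TW.H1Dir

open Matrix

variable {k : Type*} [Field k]

/-- The exceptional case `p = 5` as a statement. -/
def Bad5Stmt (k : Type*) [Field k] : Prop :=
  CharP k 5 → ∀ (Γ : Subgroup (GL (Fin 2) k)) [Finite Γ] (c : Γ → Matrix (Fin 2) (Fin 2) k),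
    IsCocycle (tad.comp Γ.subtype) c → (∀ g, (c g).trace = 0) →
    ¬ 5 ∣ (unipSub Γ).index →
    ∀ x₀ μ : k, x₀ ∈ unipAdd Γ → x₀ ≠ 0 → vGL μ ∈ Γ → μ ≠ 0 →
    (∀ z ∈ unipAdd Γ, z ≠ 0 → z * μ = 2 ∨ z * μ = -2 ∨ z * μ = 4 ∨ z * μ = -4) →
    (∃ g ∈ Γ, ((Matrix.GeneralLinearGroup.det g : kˣ) : k) ^ 2 ≠ 1) →
    ∀ x ∈ unipAdd Γ, cu c x 1 0 = 0

theorem natCast_ne_zero_of_not_dvd (p : ℕ) [CharP k p] {n : ℕ} (h : ¬ p ∣ n) : (n : k) ≠ 0 :=
  fun h0 => h ((CharP.cast_eq_zero_iff k p n).mp h0)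

/-- if `2, 3, 5 ≠ 0` in `k` there is always a good element. -/
theorem exists_good (h2 : (2 : k) ≠ 0) (h3 : (3 : k) ≠ 0) (h5 : (5 : k) ≠ 0)
    {Γ : Subgroup (GL (Fin 2) k)} {x₀ μ : k} (hx₀ : x₀ ∈ unipAdd Γ) (hx₀0 : x₀ ≠ 0) (hμ : μ ≠ 0) :
    ∃ z ∈ unipAdd Γ, z ≠ 0 ∧ z * μ ≠ 2 ∧ z * μ ≠ -2 ∧ z * μ ≠ 4 ∧ z * μ ≠ -4 := by
  by_contra hno
  push Not at hno
  have hbad : ∀ z ∈ unipAdd Γ, z ≠ 0 → z * μ = 2 ∨ z * μ = -2 ∨ z * μ = 4 ∨ z * μ = -4 := by
    intro z hz hz0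
    by_cases h1 : z * μ = 2
    · exact Or.inl h1
    by_cases h1' : z * μ = -2
    · exact Or.inr (Or.inl h1')
    by_cases h4 : z * μ = 4
    · exact Or.inr (Or.inr (Or.inl h4))
    · exact Or.inr (Or.inr (Or.inr (hno z hz hz0 h1 h1' h4)))
  have h2x : x₀ + x₀ ∈ unipAdd Γ := (unipAdd Γ).add_mem hx₀ hx₀
  have h3x : x₀ + x₀ + x₀ ∈ unipAdd Γ := (unipAdd Γ).add_mem h2x hx₀
  have h2x0 : x₀ + x₀ ≠ 0 := by
    intro h
    have : 2 * x₀ = 0 := by linear_combination h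
    rcases mul_eq_zero.mp this with h' | h'
    · exact h2 h'
    · exact hx₀0 h'
  have h3x0 : x₀ + x₀ + x₀ ≠ 0 := by
    intro h
    have : 3 * x₀ = 0 := by linear_combination h
    rcases mul_eq_zero.mp this with h' | h'
    · exact h3 h'
    · exact hx₀0 h'
  have e1 := hbad x₀ hx₀ hx₀0
  have e2 := hbad _ h2x h2x0
  have e3 := hbad _ h3x h3x0
  -- numerals
  have n4 : (4 : k) ≠ 0 := by
    have : (4 : k) = 2 * 2 := by norm_num
    rw [this]; exact mul_ne_zero h2 h2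
  have n6 : (6 : k) ≠ 0 := by
    have : (6 : k) = 2 * 3 := by norm_num
    rw [this]; exact mul_ne_zero h2 h3
  have n8 : (8 : k) ≠ 0 := by
    have : (8 : k) = 2 * 4 := by norm_num
    rw [this]; exact mul_ne_zero h2 n4
  have n10 : (10 : k) ≠ 0 := by
    have : (10 : k) = 2 * 5 := by norm_num
    rw [this]; exact mul_ne_zero h2 h5
  have n12 : (12 : k) ≠ 0 := by
    have : (12 : k) = 2 * 6 := by norm_num
    rw [this]; exact mul_ne_zero h2 n6
  set y := x₀ * μ with hy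
  have hy2 : (x₀ + x₀) * μ = 2 * y := by rw [hy]; ring
  have hy3 : (x₀ + x₀ + x₀) * μ = 3 * y := by rw [hy]; ring
  rw [hy2] at e2
  rw [hy3] at e3
  rcases e1 with h | h | h | h
  · -- y = 2 : 3y = 6
    rw [h] at e3
    rcases e3 with g | g | g | g
    · exact n4 (by linear_combination g)
    · exact n8 (by linear_combination g)
    · exact h2 (by linear_combination g)
    · exact n10 (by linear_combination g)
  · -- y = -2 : 3y = -6
    rw [h] at e3
    rcases e3 with g | g | g | g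
    · exact n8 (by linear_combination -g)
    · exact n4 (by linear_combination -g)
    · exact n10 (by linear_combination -g)
    · exact h2 (by linear_combination -g)
  · -- y = 4 : 2y = 8
    rw [h] at e2
    rcases e2 with g | g | g | g
    · exact n6 (by linear_combination g)
    · exact n10 (by linear_combination g)
    · exact n4 (by linear_combination g)
    · exact n12 (by linear_combination g)
  · -- y = -4 : 2y = -8
    rw [h] at e2
    rcases e2 with g | g | g | g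
    · exact n10 (by linear_combination -g)
    · exact n6 (by linear_combination -g)
    · exact n12 (by linear_combination -g)
    · exact n4 (by linear_combination -g)

/-- Normal-position theorem for all odd `p` (Bad5 as a binder). -/
theorem coboundary_of_normalPosition_all (p : ℕ) [Fact p.Prime] [CharP k p] (hp2 : p ≠ 2)
    (hB5 : Bad5Stmt k) {Γ : Subgroup (GL (Fin 2) k)} [Finite Γ]
    {c : Γ → Matrix (Fin 2) (Fin 2) k}
    (hc : IsCocycle (tad.comp Γ.subtype) c) (htr : ∀ g, (c g).trace = 0)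
    {x₀ μ : k} (hx₀ : x₀ ∈ unipAdd Γ) (hx₀0 : x₀ ≠ 0) (hv : vGL μ ∈ Γ) (hμ : μ ≠ 0)
    (hidx : ¬ p ∣ (unipSub Γ).index)
    (hdet5 : p = 5 → ∃ g ∈ Γ, ((Matrix.GeneralLinearGroup.det g : kˣ) : k) ^ 2 ≠ 1) :
    ∃ m : Matrix (Fin 2) (Fin 2) k, m.trace = 0 ∧ ∀ g : Γ, c g = tad g.1 m - m := by
  have hp : p.Prime := Fact.out
  have h2 : (2 : k) ≠ 0 := by
    have := natCast_ne_zero_of_not_dvd (k := k) p (n := 2)
      (fun h => hp2 ((Nat.prime_dvd_prime_iff_eq hp Nat.prime_two).mp h))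
    exact_mod_cast this
  have hidx' : (((unipSub Γ).index : ℕ) : k) ≠ 0 := natCast_ne_zero_of_not_dvd p hidx
  have hγ : ∀ x ∈ unipAdd Γ, cu c x 1 0 = 0 := by
    by_cases h3 : p = 3
    · intro x hx
      exact gamma_eq_zero_of_three p h3 hc htr hx
    by_cases hgood : ∃ z ∈ unipAdd Γ, z ≠ 0 ∧ z * μ ≠ 2 ∧ z * μ ≠ -2 ∧ z * μ ≠ 4 ∧ z * μ ≠ -4
    · obtain ⟨z, hz, hz0, h1, h1', h4, h4'⟩ := hgood
      intro x hx
      exact gamma_eq_zero_of_good p hc htr h2 hz hv hμ hz0 h1 h1' h4 h4' hx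
    by_cases h5 : p = 5
    · subst h5
      have hbad : ∀ z ∈ unipAdd Γ, z ≠ 0 →
          z * μ = 2 ∨ z * μ = -2 ∨ z * μ = 4 ∨ z * μ = -4 := by
        intro z hz hz0
        by_contra hcon
        push Not at hcon
        exact hgood ⟨z, hz, hz0, hcon.1, hcon.2.1, hcon.2.2.1, hcon.2.2.2⟩
      exact hB5 inferInstance Γ c hc htr hidx x₀ μ hx₀ hx₀0 hv hμ hbad (hdet5 rfl)
    · exfalso
      have h3k : (3 : k) ≠ 0 := by
        have := natCast_ne_zero_of_not_dvd (k := k) p (n := 3)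
          (fun h => h3 ((Nat.prime_dvd_prime_iff_eq hp Nat.prime_three).mp h))
        exact_mod_cast this
      have h5k : (5 : k) ≠ 0 := by
        have := natCast_ne_zero_of_not_dvd (k := k) p (n := 5)
          (fun h => h5 ((Nat.prime_dvd_prime_iff_eq hp Nat.prime_five).mp h))
        exact_mod_cast this
      exact hgood (exists_good h2 h3k h5k hx₀ hx₀0 hμ)
  exact coboundary_of_normalPosition p h2 hc htr hγ hx₀ hx₀0 hv hμ hidx'

end Fermat.Agent.GP.TW.H1Dir
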