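/-
  GP/TW/H1Dir/Bad5Plug.lean  (helper38)

  Discharges the binder `Bad5Stmt k` of `NPFinal.lean` (helper52) by `Bad5.gamma_eq_zero_of_bad5`,
  and states the normal-position theorem for ALL odd `p` without any binder.
-/
import Fermat.Agent.GP.TW.H1Dir.NPFinal
import Fermat.Agent.GP.TW.H1Dir.Bad5

set_option autoImplicit false

namespace Fermat.Agent.GP.TW.H1Dir

open Matrix

variable {k : Type*} [Field k]

/-- The exceptional case `p = 5` holds. -/
theorem bad5Stmt_holds (k : Type*) [Field k] : Bad5Stmt k := by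
  intro h5 Γ _ c hc htr hidx x₀ μ hx₀ hx₀0 hv hμ hbad hdet
  exact gamma_eq_zero_of_bad5 hc htr hidx hx₀ hx₀0 hv hμ hbad hdet

/-- **Normal-position theorem, all odd `p`, no binder.**  `Γ ≤ GL₂(k)` finite containing some
`u_{x₀}`, `x₀ ≠ 0`, and some `v_μ`, `μ ≠ 0`, such that the upper unipotent subgroup has index prime
to `p` (and, for `p = 5`, some element of `Γ` has `det² ≠ 1`): every traceless cocycle for the
twisted adjoint action is a coboundary of a traceless matrix. -/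
theorem coboundary_of_normalPosition_odd (p : ℕ) [Fact p.Prime] [CharP k p] (hp2 : p ≠ 2)
    {Γ : Subgroup (GL (Fin 2) k)} [Finite Γ] {c : Γ → Matrix (Fin 2) (Fin 2) k}
    (hc : IsCocycle (tad.comp Γ.subtype) c) (htr : ∀ g, (c g).trace = 0)
    {x₀ μ : k} (hx₀ : x₀ ∈ unipAdd Γ) (hx₀0 : x₀ ≠ 0) (hv : vGL μ ∈ Γ) (hμ : μ ≠ 0)
    (hidx : ¬ p ∣ (unipSub Γ).index)
    (hdet5 : p = 5 → ∃ g ∈ Γ, ((Matrix.GeneralLinearGroup.det g : kˣ) : k) ^ 2 ≠ 1) :
    ∃ m : Matrix (Fin 2) (Fin 2) k, m.trace = 0 ∧ ∀ g : Γ, c g = tad g.1 m - m :=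
  coboundary_of_normalPosition_all p hp2 (bad5Stmt_holds k) hc htr hx₀ hx₀0 hv hμ hidx hdet5

end Fermat.Agent.GP.TW.H1Dir
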