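/-
S56 [P-TW] (GT1), helper52: FINAL statement `H¹(Γ, ad⁰(det)) = 0` for a finite subgroup
`Γ ≤ GL₂(k)` without stable line, `char k = p` odd, from two binders:
`ReduceStmt p k` (conjugation to normal position; helper34 Reduce.lean / ReduceFin.lean) and
`Bad5Stmt k` (helper38).  Mathlib only.
-/
import Fermat.Agent.GP.TW.H1Dir.NPFinal

set_option autoImplicit false

namespace Fermat.Agent.GP.TW.H1Dir

open Matrix

variable {k : Type*} [Field k]

/-- "no `Γ`-stable line". -/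
def NoStableLine (Γ : Subgroup (GL (Fin 2) k)) : Prop :=
  ∀ v : Fin 2 → k, v ≠ 0 → ∃ g ∈ Γ, ¬ ∃ a : k, g.1 *ᵥ v = a • v

/-- The conclusion: `c` is the coboundary of a traceless matrix. -/
def IsTracelessCoboundary {Γ : Subgroup (GL (Fin 2) k)} (c : Γ → Matrix (Fin 2) (Fin 2) k) : Prop :=
  ∃ m : Matrix (Fin 2) (Fin 2) k, m.trace = 0 ∧ ∀ g : Γ, c g = tad g.1 m - m

/-- Reduction to normal position, as a statement. -/
def ReduceStmt (p : ℕ) (k : Type*) [Field k] : Prop :=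
  ∀ (Γ : Subgroup (GL (Fin 2) k)) [Finite Γ], p ∣ Nat.card Γ → NoStableLine Γ →
    ∀ c : Γ → Matrix (Fin 2) (Fin 2) k, IsCocycle (tad.comp Γ.subtype) c →
      (∀ g, (c g).trace = 0) →
      ∃ (Γ' : Subgroup (GL (Fin 2) k)) (_ : Finite Γ') (c' : Γ' → Matrix (Fin 2) (Fin 2) k),
        IsCocycle (tad.comp Γ'.subtype) c' ∧ (∀ g, (c' g).trace = 0) ∧
        (∃ x₀ ∈ unipAdd Γ', x₀ ≠ 0) ∧ (∃ μ : k, vGL μ ∈ Γ' ∧ μ ≠ 0) ∧
        ¬ p ∣ (unipSub Γ').index ∧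
        ((∃ g ∈ Γ, ((Matrix.GeneralLinearGroup.det g : kˣ) : k) ^ 2 ≠ 1) →
          ∃ g ∈ Γ', ((Matrix.GeneralLinearGroup.det g : kˣ) : k) ^ 2 ≠ 1) ∧
        (IsTracelessCoboundary c' → IsTracelessCoboundary c)

/-- **GT1**: `H¹(Γ, ad⁰(det)) = 0`. -/
theorem h1_vanish_of_stmts (p : ℕ) [Fact p.Prime] [CharP k p] (hp2 : p ≠ 2)
    (hRD : ReduceStmt p k) (hB5 : Bad5Stmt k)
    (Γ : Subgroup (GL (Fin 2) k)) [Finite Γ] (hirr : NoStableLine Γ)
    (hdet5 : p = 5 → ∃ g ∈ Γ, ((Matrix.GeneralLinearGroup.det g : kˣ) : k) ^ 2 ≠ 1)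
    (c : Γ → Matrix (Fin 2) (Fin 2) k) (hc : IsCocycle (tad.comp Γ.subtype) c)
    (htr : ∀ g, (c g).trace = 0) : IsTracelessCoboundary c := by
  have hp : p.Prime := Fact.out
  have h2 : (2 : k) ≠ 0 := by
    have := natCast_ne_zero_of_not_dvd (k := k) p (n := 2)
      (fun h => hp2 ((Nat.prime_dvd_prime_iff_eq hp Nat.prime_two).mp h))
    exact_mod_cast this
  by_cases hdvd : p ∣ Nat.card Γ
  · obtain ⟨Γ', hfin, c', hc', htr', ⟨x₀, hx₀, hx₀0⟩, ⟨μ, hv, hμ⟩, hidx, hdet', hback⟩ :=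
      hRD Γ hdvd hirr c hc htr
    exact hback (coboundary_of_normalPosition_all p hp2 hB5 hc' htr' hx₀ hx₀0 hv hμ hidx
      (fun h5 => hdet' (hdet5 h5)))
  · -- order prime to p: restrict to the trivial subgroup
    have hidx : (((⊥ : Subgroup Γ).index : ℕ) : k) ≠ 0 := by
      rw [Subgroup.index_bot]
      exact natCast_ne_zero_of_not_dvd p hdvd
    obtain ⟨M, hM⟩ := coboundary_of_res_eq_zero (tad.comp Γ.subtype) c hc ⊥
      (by
        intro g hg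
        rw [Subgroup.mem_bot.mp hg]
        exact hc.map_one) hidx
    exact exists_traceless_primitive h2 htr hM

end Fermat.Agent.GP.TW.H1Dir
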