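/-
S56 [P-TW] (GT1), helper34: conjugation to NORMAL POSITION (node (RD) of helper52, board 4012).

A finite subgroup `Γ ≤ GL₂(k)`, `char k = p`, `p ∣ #Γ`, without `Γ`-stable line, is conjugate to a
subgroup `Γ' = g0⁻¹ Γ g0` in which

* some `u_{x₀} ∈ Γ'` with `x₀ ≠ 0`, some `v_μ ∈ Γ'` with `μ ≠ 0`,
* the subgroup `unipSub Γ'` of upper unipotent elements is a Sylow `p`-subgroup: its index is
  prime to `p` (hence invertible in `k`).

Plus the transport of twisted-adjoint cocycles / traceless values / coboundaries along the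
conjugation.  `k` is ANY field of characteristic `p` (no finiteness of `k`).
Mathlib + helper52's `GP/TW/H1Dir/{Basic,TraceId,Unip,PCob,NPMain}` only.
-/
import Fermat.Agent.GP.TW.H1Dir.NPMain

set_option autoImplicit false

namespace Fermat.Agent.GP.TW.H1Dir

open Matrix

variable {k : Type*} [Field k]

/-! ### Conjugating a subgroup -/

/-- `Γ' = g0⁻¹ Γ g0`. -/
def conjSub (g0 : GL (Fin 2) k) (Γ : Subgroup (GL (Fin 2) k)) : Subgroup (GL (Fin 2) k) :=
  Γ.comap (MulAut.conj g0).toMonoidHom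

theorem mem_conjSub {g0 : GL (Fin 2) k} {Γ : Subgroup (GL (Fin 2) k)} {γ : GL (Fin 2) k} :
    γ ∈ conjSub g0 Γ ↔ g0 * γ * g0⁻¹ ∈ Γ := Iff.rfl

theorem conj_mem_conjSub {g0 : GL (Fin 2) k} {Γ : Subgroup (GL (Fin 2) k)} {g : GL (Fin 2) k}
    (hg : g ∈ Γ) : g0⁻¹ * g * g0 ∈ conjSub g0 Γ := by
  rw [mem_conjSub]
  have : g0 * (g0⁻¹ * g * g0) * g0⁻¹ = g := by group
  rwa [this]

instance conjSub_finite (g0 : GL (Fin 2) k) (Γ : Subgroup (GL (Fin 2) k)) [Finite Γ] :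
    Finite (conjSub g0 Γ) :=
  Finite.of_injective (fun γ : conjSub g0 Γ => (⟨g0 * γ.1 * g0⁻¹, γ.2⟩ : Γ)) (by
    intro a b h
    have h1 : g0 * a.1 * g0⁻¹ = g0 * b.1 * g0⁻¹ := congrArg Subtype.val h
    apply Subtype.ext
    have h2 : g0⁻¹ * (g0 * a.1 * g0⁻¹) * g0 = g0⁻¹ * (g0 * b.1 * g0⁻¹) * g0 := by rw [h1]
    have ha : g0⁻¹ * (g0 * a.1 * g0⁻¹) * g0 = a.1 := by group
    have hb : g0⁻¹ * (g0 * b.1 * g0⁻¹) * g0 = b.1 := by group
    rw [ha, hb] at h2
    exact h2)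

theorem val_inv_mul_val (g : GL (Fin 2) k) : (g⁻¹).1 * g.1 = 1 := by
  simp

theorem val_mul_val_inv (g : GL (Fin 2) k) : g.1 * (g⁻¹).1 = 1 := by
  simp

theorem det_conj (h a : GL (Fin 2) k) :
    Matrix.GeneralLinearGroup.det (h * a * h⁻¹) = Matrix.GeneralLinearGroup.det a := by
  rw [map_mul, map_mul, map_inv, mul_comm, ← mul_assoc, inv_mul_cancel, one_mul]

/-- `tad` is compatible with conjugation of the group element and of the matrix. -/
theorem tad_conj (h a : GL (Fin 2) k) (Y : Matrix (Fin 2) (Fin 2) k) :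
    h.1 * tad a Y * (h⁻¹).1 = tad (h * a * h⁻¹) (h.1 * Y * (h⁻¹).1) := by
  rw [tad_apply, tad_apply, det_conj, Matrix.mul_smul, Matrix.smul_mul]
  congr 1
  have hinv : (h * a * h⁻¹)⁻¹ = h * a⁻¹ * h⁻¹ := by group
  rw [hinv]
  simp only [Units.val_mul]
  have e := val_inv_mul_val h
  calc h.1 * (a.1 * Y * (a⁻¹).1) * (h⁻¹).1
      = h.1 * a.1 * (1 : Matrix (Fin 2) (Fin 2) k) * Y * (1 : Matrix (Fin 2) (Fin 2) k)
          * (a⁻¹).1 * (h⁻¹).1 := by
        simp only [Matrix.mul_one, Matrix.mul_assoc]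
    _ = h.1 * a.1 * ((h⁻¹).1 * h.1) * Y * ((h⁻¹).1 * h.1) * (a⁻¹).1 * (h⁻¹).1 := by rw [e]
    _ = h.1 * a.1 * (h⁻¹).1 * (h.1 * Y * (h⁻¹).1) * (h.1 * (a⁻¹).1 * (h⁻¹).1) := by
        simp only [Matrix.mul_assoc]

/-! ### Transport of cocycles -/

/-- The cocycle on `g0⁻¹ Γ g0` corresponding to `c`: `c'(γ') = g0⁻¹ c(g0 γ' g0⁻¹) g0`. -/
def conjCocycle (g0 : GL (Fin 2) k) {Γ : Subgroup (GL (Fin 2) k)}
    (c : Γ → Matrix (Fin 2) (Fin 2) k) : conjSub g0 Γ → Matrix (Fin 2) (Fin 2) k :=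
  fun γ => (g0⁻¹).1 * c ⟨g0 * γ.1 * g0⁻¹, γ.2⟩ * g0.1

theorem conjCocycle_apply (g0 : GL (Fin 2) k) {Γ : Subgroup (GL (Fin 2) k)}
    (c : Γ → Matrix (Fin 2) (Fin 2) k) (γ : conjSub g0 Γ) :
    conjCocycle g0 c γ = (g0⁻¹).1 * c ⟨g0 * γ.1 * g0⁻¹, γ.2⟩ * g0.1 := rfl

theorem conjCocycle_isCocycle (g0 : GL (Fin 2) k) {Γ : Subgroup (GL (Fin 2) k)}
    {c : Γ → Matrix (Fin 2) (Fin 2) k} (hc : IsCocycle (tad.comp Γ.subtype) c) :
    IsCocycle (tad.comp (conjSub g0 Γ).subtype) (conjCocycle g0 c) := by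
  intro a b
  rw [conjCocycle_apply, conjCocycle_apply, conjCocycle_apply]
  have hmul : (⟨g0 * (a * b).1 * g0⁻¹, (a * b).2⟩ : Γ)
      = ⟨g0 * a.1 * g0⁻¹, a.2⟩ * ⟨g0 * b.1 * g0⁻¹, b.2⟩ := by
    apply Subtype.ext
    show g0 * (a.1 * b.1) * g0⁻¹ = (g0 * a.1 * g0⁻¹) * (g0 * b.1 * g0⁻¹)
    group
  rw [hmul, hc, Matrix.mul_add, Matrix.add_mul]
  congr 1
  simp only [MonoidHom.comp_apply, Subgroup.subtype_apply]
  have key := tad_conj g0⁻¹ (g0 * a.1 * g0⁻¹) (c ⟨g0 * b.1 * g0⁻¹, b.2⟩)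
  rw [inv_inv] at key
  rw [key]
  congr 1
  group

theorem conjCocycle_trace (g0 : GL (Fin 2) k) {Γ : Subgroup (GL (Fin 2) k)}
    {c : Γ → Matrix (Fin 2) (Fin 2) k} (htr : ∀ g, (c g).trace = 0) (γ : conjSub g0 Γ) :
    (conjCocycle g0 c γ).trace = 0 := by
  rw [conjCocycle_apply, Matrix.trace_mul_comm, ← Matrix.mul_assoc, val_mul_val_inv,
    Matrix.one_mul]
  exact htr _

/-- A primitive of the conjugated cocycle gives a primitive of the cocycle. -/
theorem coboundary_of_conjCocycle (g0 : GL (Fin 2) k) {Γ : Subgroup (GL (Fin 2) k)}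
    {c : Γ → Matrix (Fin 2) (Fin 2) k}
    (h : ∃ m' : Matrix (Fin 2) (Fin 2) k, m'.trace = 0 ∧
      ∀ γ : conjSub g0 Γ, conjCocycle g0 c γ = tad γ.1 m' - m') :
    ∃ m : Matrix (Fin 2) (Fin 2) k, m.trace = 0 ∧ ∀ g : Γ, c g = tad g.1 m - m := by
  obtain ⟨m', hm', hcob⟩ := h
  refine ⟨g0.1 * m' * (g0⁻¹).1, ?_, fun g => ?_⟩
  · rw [Matrix.trace_mul_comm, ← Matrix.mul_assoc, val_inv_mul_val, Matrix.one_mul]
    exact hm'
  · have hmem : g0⁻¹ * g.1 * g0 ∈ conjSub g0 Γ := conj_mem_conjSub g.2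
    have h1 := hcob ⟨g0⁻¹ * g.1 * g0, hmem⟩
    rw [conjCocycle_apply] at h1
    have hsub : (⟨g0 * (g0⁻¹ * g.1 * g0) * g0⁻¹, hmem⟩ : Γ) = g := by
      apply Subtype.ext
      show g0 * (g0⁻¹ * g.1 * g0) * g0⁻¹ = g.1
      group
    have h1' : (g0⁻¹).1 * c g * g0.1 = tad (g0⁻¹ * g.1 * g0) m' - m' := by
      have h1'' := h1
      simp only at h1''
      rw [← h1'']
      congr 2
      exact congrArg c hsub.symm
    have h2 : c g = g0.1 * ((g0⁻¹).1 * c g * g0.1) * (g0⁻¹).1 := by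
      calc c g = (g0.1 * (g0⁻¹).1) * c g * (g0.1 * (g0⁻¹).1) := by
            rw [val_mul_val_inv, Matrix.one_mul, Matrix.mul_one]
        _ = g0.1 * ((g0⁻¹).1 * c g * g0.1) * (g0⁻¹).1 := by simp only [Matrix.mul_assoc]
    rw [h2, h1', Matrix.mul_sub, Matrix.sub_mul, tad_conj]
    congr 2
    group

/-- Transport of the determinant condition (for `p = 5`). -/
theorem exists_det_sq_ne_one_conjSub (g0 : GL (Fin 2) k) {Γ : Subgroup (GL (Fin 2) k)}
    (h : ∃ g ∈ Γ, ((Matrix.GeneralLinearGroup.det g : kˣ) : k) ^ 2 ≠ 1) :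
    ∃ g ∈ conjSub g0 Γ, ((Matrix.GeneralLinearGroup.det g : kˣ) : k) ^ 2 ≠ 1 := by
  obtain ⟨g, hg, hd⟩ := h
  refine ⟨g0⁻¹ * g * g0, conj_mem_conjSub hg, ?_⟩
  have := det_conj g0⁻¹ g
  rw [inv_inv] at this
  rw [this]
  exact hd

/-! ### `p`-elements fixing a basis vector -/

section pElements

variable (p : ℕ) [Fact p.Prime] [CharP k p]

theorem eq_one_of_pow_prime_pow_eq_one {d : k} {n : ℕ} (hd : d ^ p ^ n = 1) : d = 1 := by
  have h : (d - 1) ^ p ^ n = 0 := by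
    rw [sub_pow_char_pow_of_commute p n (Commute.one_right d), hd, one_pow, sub_self]
  exact sub_eq_zero.mp (pow_eq_zero_iff (pow_ne_zero n (Fact.out : p.Prime).ne_zero) |>.mp h)

theorem mulVec_e1 (M : Matrix (Fin 2) (Fin 2) k) : M *ᵥ ![1, 0] = ![M 0 0, M 1 0] := by
  ext i; fin_cases i <;> simp [Matrix.mulVec, dotProduct, Fin.sum_univ_two]

theorem mulVec_e2 (M : Matrix (Fin 2) (Fin 2) k) : M *ᵥ ![0, 1] = ![M 0 1, M 1 1] := by
  ext i; fin_cases i <;> simp [Matrix.mulVec, dotProduct, Fin.sum_univ_two]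

/-- the determinant of a `p`-element is `1` -/
theorem det_eq_one_of_pow (M : GL (Fin 2) k) {n : ℕ} (hM : M ^ p ^ n = 1) : M.1.det = 1 := by
  have h1 : (M.1 ^ p ^ n) = 1 := by
    rw [← Units.val_pow_eq_pow_val, hM, Units.val_one]
  have h2 : M.1.det ^ p ^ n = 1 := by
    rw [← Matrix.det_pow, h1, Matrix.det_one]
  exact eq_one_of_pow_prime_pow_eq_one p h2

/-- the trace of a `p`-element is `2` -/
theorem trace_eq_two_of_pow (M : GL (Fin 2) k) {n : ℕ} (hM : M ^ p ^ n = 1) : M.1.trace = 2 := by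
  have h1 : (M.1 ^ p ^ n) = 1 := by
    rw [← Units.val_pow_eq_pow_val, hM, Units.val_one]
  have : CharP (Matrix (Fin 2) (Fin 2) k) p := Matrix.charP p
  have h2 : (M.1 - 1) ^ p ^ n = 0 := by
    rw [sub_pow_char_pow_of_commute p n (Commute.one_right _), h1, one_pow, sub_self]
  have h3 := trace_eq_zero_of_pow_eq_zero h2
  rw [Matrix.trace_sub, Matrix.trace_one, Fintype.card_fin] at h3
  have : M.1.trace = ((2 : ℕ) : k) := sub_eq_zero.mp h3
  rw [this]; norm_num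

/-- a `p`-element fixing `e₁` is upper unipotent -/
theorem eq_uGL_of_fix_e1 (M : GL (Fin 2) k) {n : ℕ} (hM : M ^ p ^ n = 1)
    (hfix : M.1 *ᵥ ![1, 0] = ![1, 0]) : M = uGL (M.1 0 1) := by
  rw [mulVec_e1] at hfix
  have h00 : M.1 0 0 = 1 := by
    have := congrFun hfix 0
    simpa using this
  have h10 : M.1 1 0 = 0 := by
    have := congrFun hfix 1
    simpa using this
  have hdet := det_eq_one_of_pow p M hM
  rw [Matrix.det_fin_two, h00, h10, mul_zero, sub_zero, one_mul] at hdet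
  apply Units.ext
  rw [uGL_val]
  ext i j
  fin_cases i <;> fin_cases j <;> simp [uMat, h00, h10, hdet]

/-- a `p`-element fixing `e₂` is lower unipotent -/
theorem eq_vGL_of_fix_e2 (M : GL (Fin 2) k) {n : ℕ} (hM : M ^ p ^ n = 1)
    (hfix : M.1 *ᵥ ![0, 1] = ![0, 1]) : M = vGL (M.1 1 0) := by
  rw [mulVec_e2] at hfix
  have h01 : M.1 0 1 = 0 := by
    have := congrFun hfix 0
    simpa using this
  have h11 : M.1 1 1 = 1 := by
    have := congrFun hfix 1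
    simpa using this
  have hdet := det_eq_one_of_pow p M hM
  rw [Matrix.det_fin_two, h01, h11, zero_mul, sub_zero, mul_one] at hdet
  apply Units.ext
  rw [vGL_val]
  ext i j
  fin_cases i <;> fin_cases j <;> simp [vMat, h01, h11, hdet]

theorem uGL_pow (x : k) (n : ℕ) : uGL x ^ n = uGL ((n : k) * x) := by
  induction n with
  | zero => simp [uGL_zero]
  | succ n ih => rw [pow_succ, ih, uGL_mul]; congr 1; push_cast; ring

omit [Fact p.Prime] in
theorem uGL_pow_char (x : k) : uGL x ^ p = 1 := by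
  rw [uGL_pow, CharP.cast_eq_zero k p, zero_mul, uGL_zero]

theorem uGL_injective {x y : k} (h : uGL x = uGL y) : x = y := by
  have := congrArg (fun g : GL (Fin 2) k => g.1 0 1) h
  simpa [uMat] using this

omit [Fact p.Prime] in
/-- `unipSub Γ` is a `p`-group. -/
theorem isPGroup_unipSub (Γ : Subgroup (GL (Fin 2) k)) : IsPGroup p (unipSub Γ) := by
  intro g
  refine ⟨1, ?_⟩
  obtain ⟨x, hx⟩ := g.2
  apply Subtype.ext
  apply Subtype.ext
  rw [pow_one, Subgroup.coe_pow, Subgroup.coe_pow, hx, uGL_pow_char]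
  rfl

/-- If `Γ` is finite and contains some `u_{x₀}`, `x₀ ≠ 0`, then the upper unipotent subgroup of `Γ`
is a Sylow `p`-subgroup: its index is prime to `p`. -/
theorem not_dvd_index_unipSub (Γ : Subgroup (GL (Fin 2) k)) [Finite Γ] {x₀ : k}
    (hx₀ : x₀ ∈ unipAdd Γ) (hx₀0 : x₀ ≠ 0) : ¬ p ∣ (unipSub Γ).index := by
  obtain ⟨Q, hQ⟩ := (isPGroup_unipSub p Γ).exists_le_sylow
  have hle : (Q : Subgroup Γ) ≤ unipSub Γ := by
    intro h hh
    -- `h` is a `p`-element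
    obtain ⟨n, hn⟩ := Q.isPGroup' ⟨h, hh⟩
    have hn' : h.1 ^ p ^ n = 1 := by
      have := congrArg (fun q : (Q : Subgroup Γ) => (q.1.1 : GL (Fin 2) k)) hn
      simpa using this
    -- `u h` is a `p`-element as well
    let u : Γ := ⟨uGL x₀, hx₀⟩
    have hu : u ∈ (Q : Subgroup Γ) := hQ ⟨x₀, rfl⟩
    obtain ⟨n', hn'0⟩ := Q.isPGroup' ⟨u * h, Q.mul_mem hu hh⟩
    have hn'1 : (uGL x₀ * h.1) ^ p ^ n' = 1 := by
      have := congrArg (fun q : (Q : Subgroup Γ) => (q.1.1 : GL (Fin 2) k)) hn'0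
      simpa [u] using this
    have ht1 := trace_eq_two_of_pow p h.1 hn'
    have ht2 := trace_eq_two_of_pow p (uGL x₀ * h.1) hn'1
    have hd1 := det_eq_one_of_pow p h.1 hn'
    rw [Units.val_mul, uGL_val, Matrix.trace_fin_two] at ht2
    rw [Matrix.trace_fin_two] at ht1
    rw [Matrix.det_fin_two] at hd1
    simp only [uMat, Matrix.mul_apply, Fin.sum_univ_two, Matrix.of_apply, Matrix.cons_val',
      Matrix.cons_val_zero, Matrix.cons_val_one, Matrix.cons_val_fin_one] at ht2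
    have h10 : h.1.1 1 0 = 0 := by
      have : x₀ * h.1.1 1 0 = 0 := by linear_combination ht2 - ht1
      rcases mul_eq_zero.mp this with h' | h'
      · exact absurd h' hx₀0
      · exact h'
    have h00 : h.1.1 0 0 = 1 := by
      have : (h.1.1 0 0 - 1) ^ 2 = 0 := by
        rw [h10] at hd1
        linear_combination (h.1.1 0 0) * ht1 - hd1
      have := pow_eq_zero_iff (two_ne_zero) |>.mp this
      exact sub_eq_zero.mp this
    have h11 : h.1.1 1 1 = 1 := by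
      rw [h00] at ht1
      linear_combination ht1
    refine ⟨h.1.1 0 1, ?_⟩
    apply Units.ext
    rw [uGL_val]
    ext i j
    fin_cases i <;> fin_cases j <;> simp [uMat, h00, h10, h11]
  have heq : unipSub Γ = (Q : Subgroup Γ) := le_antisymm hQ hle
  rw [heq]
  exact Q.not_dvd_index

include p in
theorem index_unipSub_cast_ne_zero (Γ : Subgroup (GL (Fin 2) k)) [Finite Γ] {x₀ : k}
    (hx₀ : x₀ ∈ unipAdd Γ) (hx₀0 : x₀ ≠ 0) : (((unipSub Γ).index : ℕ) : k) ≠ 0 := by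
  intro h
  exact not_dvd_index_unipSub p Γ hx₀ hx₀0 ((CharP.cast_eq_zero_iff k p _).mp h)

/-! ### The conjugation -/

/-- A finite subgroup of `GL₂(k)` (`char k = p`) of order divisible by `p` without stable line is
conjugate to a subgroup in normal position. -/
theorem exists_conj_normalPosition (Γ : Subgroup (GL (Fin 2) k)) [Finite Γ]
    (hp : p ∣ Nat.card Γ)
    (hirr : ∀ v : Fin 2 → k, v ≠ 0 → ∃ g ∈ Γ, ¬ ∃ a : k, g.1 *ᵥ v = a • v) :
    ∃ (g0 : GL (Fin 2) k) (x₀ μ : k), x₀ ∈ unipAdd (conjSub g0 Γ) ∧ x₀ ≠ 0 ∧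
      vGL μ ∈ conjSub g0 Γ ∧ μ ≠ 0 ∧ ¬ p ∣ (unipSub (conjSub g0 Γ)).index ∧
      (((unipSub (conjSub g0 Γ)).index : ℕ) : k) ≠ 0 := by
  -- Cauchy
  obtain ⟨z, hz⟩ := exists_prime_orderOf_dvd_card' p hp
  have hp' : p.Prime := Fact.out
  have hzp : z.1 ^ p ^ 1 = 1 := by
    rw [pow_one, ← Subgroup.coe_pow, ← hz, pow_orderOf_eq_one, Subgroup.coe_one]
  have hz1 : z.1 ≠ 1 := by
    intro h
    have : z = 1 := Subtype.ext h
    rw [this, orderOf_one] at hz
    exact hp'.one_lt.ne hz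
  -- `N = Z - 1` is nonzero of square zero
  set Z : Matrix (Fin 2) (Fin 2) k := z.1.1 with hZ
  set N : Matrix (Fin 2) (Fin 2) k := Z - 1 with hN
  have hZp : Z ^ p ^ 1 = 1 := by
    rw [hZ, ← Units.val_pow_eq_pow_val, hzp, Units.val_one]
  have : CharP (Matrix (Fin 2) (Fin 2) k) p := Matrix.charP p
  have hNp : N ^ p ^ 1 = 0 := by
    rw [hN, sub_pow_char_pow_of_commute p 1 (Commute.one_right _), hZp, one_pow, sub_self]
  have hNtr : N.trace = 0 := trace_eq_zero_of_pow_eq_zero hNp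
  have hNdet : N.det = 0 := by
    have := congrArg Matrix.det hNp
    rw [Matrix.det_pow, Matrix.det_zero] at this
    exact (pow_eq_zero_iff (pow_ne_zero 1 hp'.ne_zero)).mp this
  have hNN : N * N = 0 := by
    rw [sq_eq_trace_smul_sub_det, hNtr, hNdet, zero_smul, zero_smul, sub_zero]
  have hN0 : N ≠ 0 := by
    intro h
    apply hz1
    apply Units.ext
    rw [Units.val_one]
    exact sub_eq_zero.mp (hN ▸ h)
  -- a nonzero column `v` of `N`
  obtain ⟨j, hj⟩ : ∃ j : Fin 2, (fun i => N i j) ≠ 0 := by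
    by_contra hcon
    push Not at hcon
    apply hN0
    ext i j
    exact congrFun (hcon j) i
  set v : Fin 2 → k := fun i => N i j with hv
  have hNv : N *ᵥ v = 0 := by
    ext i
    have := congrFun (congrFun hNN i) j
    rw [Matrix.mul_apply] at this
    simpa [Matrix.mulVec, dotProduct, hv] using this
  have hZv : Z *ᵥ v = v := by
    have : Z = N + 1 := by rw [hN]; abel
    rw [this, Matrix.add_mulVec, hNv, Matrix.one_mulVec, zero_add]
  -- an element of `Γ` moving the line `k v`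
  obtain ⟨g1, hg1, hmove⟩ := hirr v hj
  set f : Fin 2 → k := g1.1 *ᵥ v with hf
  -- the basis `(v, f)`
  set G : Matrix (Fin 2) (Fin 2) k := !![v 0, f 0; v 1, f 1] with hG
  have hGdet : G.det ≠ 0 := by
    intro hdet
    rw [hG, Matrix.det_fin_two_of] at hdet
    apply hmove
    by_cases hv0 : v 0 = 0
    · have hv1 : v 1 ≠ 0 := by
        intro hv1
        apply hj
        ext i; fin_cases i
        · exact hv0
        · exact hv1
      refine ⟨f 1 / v 1, ?_⟩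
      ext i; fin_cases i
      · simp only [Fin.zero_eta, Pi.smul_apply, smul_eq_mul]
        rw [hv0] at hdet ⊢
        have : f 0 * v 1 = 0 := by linear_combination -hdet
        rcases mul_eq_zero.mp this with h' | h'
        · rw [h', mul_zero]
        · exact absurd h' hv1
      · simp only [Fin.mk_one, Pi.smul_apply, smul_eq_mul]
        field_simp
    · refine ⟨f 0 / v 0, ?_⟩
      ext i; fin_cases i
      · simp only [Fin.zero_eta, Pi.smul_apply, smul_eq_mul]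
        field_simp
      · simp only [Fin.mk_one, Pi.smul_apply, smul_eq_mul]
        field_simp
        linear_combination hdet
  set g0 : GL (Fin 2) k := Matrix.GeneralLinearGroup.mkOfDetNeZero G hGdet with hg0
  have hg0v : g0.1 = G := rfl
  have hGe1 : G *ᵥ ![1, 0] = v := by
    rw [mulVec_e1, hG]
    ext i; fin_cases i <;> simp
  have hGe2 : G *ᵥ ![0, 1] = f := by
    rw [mulVec_e2, hG]
    ext i; fin_cases i <;> simp
  have hGi : (g0⁻¹).1 * G = 1 := by rw [← hg0v]; exact val_inv_mul_val g0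
  have hinv_v : (g0⁻¹).1 *ᵥ v = ![1, 0] := by
    rw [← hGe1, Matrix.mulVec_mulVec, hGi, Matrix.one_mulVec]
  have hinv_f : (g0⁻¹).1 *ᵥ f = ![0, 1] := by
    rw [← hGe2, Matrix.mulVec_mulVec, hGi, Matrix.one_mulVec]
  -- `z' = g0⁻¹ z g0` is upper unipotent
  have hz'mem : g0⁻¹ * z.1 * g0 ∈ conjSub g0 Γ := conj_mem_conjSub z.2
  have hz'pow : (g0⁻¹ * z.1 * g0) ^ p ^ 1 = 1 := by
    have : g0⁻¹ * z.1 * g0 = (MulAut.conj g0⁻¹) z.1 := by
      rw [MulAut.conj_apply, inv_inv]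
    rw [this, ← map_pow, hzp, map_one]
  have hz'fix : (g0⁻¹ * z.1 * g0).1 *ᵥ ![1, 0] = ![1, 0] := by
    rw [Units.val_mul, Units.val_mul, ← Matrix.mulVec_mulVec, ← Matrix.mulVec_mulVec, hg0v, hGe1,
      ← hZ, hZv, hinv_v]
  have hz'eq := eq_uGL_of_fix_e1 p _ hz'pow hz'fix
  set x₀ : k := (g0⁻¹ * z.1 * g0).1 0 1 with hx₀
  have hx₀0 : x₀ ≠ 0 := by
    intro h
    rw [h, uGL_zero] at hz'eq
    apply hz1
    have : g0 * (g0⁻¹ * z.1 * g0) * g0⁻¹ = z.1 := by group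
    rw [← this, hz'eq]
    group
  have hx₀mem : x₀ ∈ unipAdd (conjSub g0 Γ) := by
    rw [mem_unipAdd, ← hz'eq]
    exact hz'mem
  -- `w' = g0⁻¹ (g1 z g1⁻¹) g0` is lower unipotent
  have hwΓ : g1 * z.1 * g1⁻¹ ∈ Γ := Γ.mul_mem (Γ.mul_mem hg1 z.2) (Γ.inv_mem hg1)
  have hw'mem : g0⁻¹ * (g1 * z.1 * g1⁻¹) * g0 ∈ conjSub g0 Γ := conj_mem_conjSub hwΓ
  have hw'pow : (g0⁻¹ * (g1 * z.1 * g1⁻¹) * g0) ^ p ^ 1 = 1 := by
    have : g0⁻¹ * (g1 * z.1 * g1⁻¹) * g0 = (MulAut.conj (g0⁻¹ * g1)) z.1 := by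
      rw [MulAut.conj_apply]; group
    rw [this, ← map_pow, hzp, map_one]
  have hg1inv_f : (g1⁻¹).1 *ᵥ f = v := by
    rw [hf, Matrix.mulVec_mulVec, val_inv_mul_val, Matrix.one_mulVec]
  have hw'fix : (g0⁻¹ * (g1 * z.1 * g1⁻¹) * g0).1 *ᵥ ![0, 1] = ![0, 1] := by
    simp only [Units.val_mul]
    rw [← Matrix.mulVec_mulVec, ← Matrix.mulVec_mulVec, ← Matrix.mulVec_mulVec,
      ← Matrix.mulVec_mulVec, hg0v, hGe2, hg1inv_f, ← hZ, hZv, ← hf, hinv_f]
  have hw'eq := eq_vGL_of_fix_e2 p _ hw'pow hw'fix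
  set μ : k := (g0⁻¹ * (g1 * z.1 * g1⁻¹) * g0).1 1 0 with hμ
  have hμ0 : μ ≠ 0 := by
    intro h
    have hv0 : vGL (0 : k) = 1 := Units.ext vMat_zero
    rw [h, hv0] at hw'eq
    apply hz1
    have : g1⁻¹ * (g0 * (g0⁻¹ * (g1 * z.1 * g1⁻¹) * g0) * g0⁻¹) * g1 = z.1 := by group
    rw [← this, hw'eq]
    group
  have hμmem : vGL μ ∈ conjSub g0 Γ := by
    rw [← hw'eq]
    exact hw'mem
  exact ⟨g0, x₀, μ, hx₀mem, hx₀0, hμmem, hμ0,
    not_dvd_index_unipSub p _ hx₀mem hx₀0, index_unipSub_cast_ne_zero p _ hx₀mem hx₀0⟩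

end pElements

end Fermat.Agent.GP.TW.H1Dir
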