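/-
S56 [P-TW] (GT1), helper34: `ReduceStmt p k` of helper52's `Final.lean` holds (from `ConjNP.lean`),
hence GT1 `H¹(Γ, ad⁰(det)) = 0` modulo `Bad5Stmt k` only.
Mathlib + `GP/TW/H1Dir/{Final, ConjNP}` only.
-/
import Fermat.Agent.GP.TW.H1Dir.Final
import Fermat.Agent.GP.TW.H1Dir.ConjNP

set_option autoImplicit false

namespace Fermat.Agent.GP.TW.H1Dir

open Matrix

variable {k : Type*} [Field k]

/-- The reduction to normal position (binder `hRD` of `h1_vanish_of_stmts`). -/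
theorem reduceStmt_holds (p : ℕ) [Fact p.Prime] [CharP k p] : ReduceStmt p k := by
  intro Γ _ hdvd hirr c hc htr
  obtain ⟨g0, x₀, μ, hx₀, hx₀0, hv, hμ, hidx, -⟩ := exists_conj_normalPosition p Γ hdvd hirr
  exact ⟨conjSub g0 Γ, conjSub_finite g0 Γ, conjCocycle g0 c, conjCocycle_isCocycle g0 hc,
    conjCocycle_trace g0 htr, ⟨x₀, hx₀, hx₀0⟩, ⟨μ, hv, hμ⟩, hidx,
    exists_det_sq_ne_one_conjSub g0, coboundary_of_conjCocycle g0⟩

/-- GT1 with the only remaining binder `Bad5Stmt k`. -/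
theorem h1_vanish_of_bad5Stmt (p : ℕ) [Fact p.Prime] [CharP k p] (hp2 : p ≠ 2)
    (hB5 : Bad5Stmt k)
    (Γ : Subgroup (GL (Fin 2) k)) [Finite Γ] (hirr : NoStableLine Γ)
    (hdet5 : p = 5 → ∃ g ∈ Γ, ((Matrix.GeneralLinearGroup.det g : kˣ) : k) ^ 2 ≠ 1)
    (c : Γ → Matrix (Fin 2) (Fin 2) k) (hc : IsCocycle (tad.comp Γ.subtype) c)
    (htr : ∀ g, (c g).trace = 0) : IsTracelessCoboundary c :=
  h1_vanish_of_stmts p hp2 (reduceStmt_holds p) hB5 Γ hirr hdet5 c hc htr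

end Fermat.Agent.GP.TW.H1Dir
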