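/-
S56 [P-TW] (GT1), helper52: **`H¹(Γ, ad⁰(det)) = 0`** with NO binder left, for every finite subgroup
`Γ ≤ GL₂(k)` without stable line, `k` ANY field of odd characteristic `p` (for `p = 5`: some element
of `Γ` has `det² ≠ 1`).  Direct proof (no Dickson, no torus count):
`Basic/TraceId/Unip/FunEqK/PCob/NPMain/NPFinal/Final` (helper52), `FunEq/Frattini5/Bad5/Bad5Plug`
(helper38), `ConjNP/ReducePlug` (helper34).
-/
import Fermat.Agent.GP.TW.H1Dir.ReducePlug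
import Fermat.Agent.GP.TW.H1Dir.Bad5Plug

set_option autoImplicit false

namespace Fermat.Agent.GP.TW.H1Dir

open Matrix

variable {k : Type*} [Field k]

/-- **GT1**: `H¹(Γ, ad⁰(det)) = 0`. -/
theorem h1_vanish (p : ℕ) [Fact p.Prime] [CharP k p] (hp2 : p ≠ 2)
    (Γ : Subgroup (GL (Fin 2) k)) [Finite Γ] (hirr : NoStableLine Γ)
    (hdet5 : p = 5 → ∃ g ∈ Γ, ((Matrix.GeneralLinearGroup.det g : kˣ) : k) ^ 2 ≠ 1)
    (c : Γ → Matrix (Fin 2) (Fin 2) k) (hc : IsCocycle (tad.comp Γ.subtype) c)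
    (htr : ∀ g, (c g).trace = 0) : IsTracelessCoboundary c :=
  h1_vanish_of_stmts p hp2 (reduceStmt_holds p) (bad5Stmt_holds k) Γ hirr hdet5 c hc htr

/-- the same with all definitions unfolded (the `h1v` binder of `GT1Plug.hGT1_of_h1_vanish`). -/
theorem h1_vanish' (p : ℕ) [Fact p.Prime] [CharP k p] (hp2 : p ≠ 2)
    (Γ : Subgroup (GL (Fin 2) k)) [Finite Γ]
    (hirr : ∀ v : Fin 2 → k, v ≠ 0 → ∃ g ∈ Γ, ¬ ∃ a : k, g.1 *ᵥ v = a • v)
    (hdet5 : p = 5 → ∃ g ∈ Γ, ((Matrix.GeneralLinearGroup.det g : kˣ) : k) ^ 2 ≠ 1)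
    (c : Γ → Matrix (Fin 2) (Fin 2) k) (hc : IsCocycle (tad.comp Γ.subtype) c)
    (htr : ∀ g, (c g).trace = 0) :
    ∃ m : Matrix (Fin 2) (Fin 2) k, m.trace = 0 ∧ ∀ g : Γ, c g = tad g.1 m - m :=
  h1_vanish p hp2 Γ hirr hdet5 c hc htr

end Fermat.Agent.GP.TW.H1Dir
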